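import Fermat.Agent.LR.Ihara.Hecke

/-!
# Homomorphisms killing a principal group

A homomorphism of `Γ₀(N)` killing the translations, their transposes of level `N` and a principal
group of level `N L` with `L` a prime power prime to `N` factors through the lower right entry
modulo `N`; a Hecke operator then acts on it as `ℓ + 1`.
-/

set_option autoImplicit false

noncomputable section

open scoped MatrixGroups OnePoint
open Matrix CongruenceSubgroup ModularCurve.Period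
open P2MW.S_ModularForm_heckeT_slash_eq_self_of_mem_Gamma0.ModularForm
open HeckeSlashInvariance

namespace FermatAgent.LR

variable {N ℓ : ℕ} {k : Type*} [Field k] {u : Additive (Gamma0 N) →+ k}

/-- An upper translation. -/
def tElt (N : ℕ) (z : ℤ) : Gamma0 N :=
  ⟨⟨!![1, z; 0, 1], by simp⟩, by simp [Gamma0_mem]⟩

/-- A lower translation of level `N`. -/
def lElt (N : ℕ) (z : ℤ) : Gamma0 N :=
  ⟨⟨!![1, 0; (N : ℤ) * z, 1], by simp⟩, by simp [Gamma0_mem]⟩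

lemma map_tElt (hu : IsParabolicHom (Gamma0 N) u) (z : ℤ) : u (Additive.ofMul (tElt N z)) = 0 :=
  hu _ (by simp [tElt, Matrix.trace_fin_two])

lemma map_lElt (hu : IsParabolicHom (Gamma0 N) u) (z : ℤ) : u (Additive.ofMul (lElt N z)) = 0 :=
  hu _ (by simp [lElt, Matrix.trace_fin_two])

lemma map_tElt_mul (hu : IsParabolicHom (Gamma0 N) u) (z : ℤ) (γ : Gamma0 N) :
    u (Additive.ofMul (tElt N z * γ)) = u (Additive.ofMul γ) := by
  rw [ofMul_mul, map_add, map_tElt hu, zero_add]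

lemma map_lElt_mul (hu : IsParabolicHom (Gamma0 N) u) (z : ℤ) (γ : Gamma0 N) :
    u (Additive.ofMul (lElt N z * γ)) = u (Additive.ofMul γ) := by
  rw [ofMul_mul, map_add, map_lElt hu, zero_add]

lemma tElt_mul_apply (z : ℤ) (γ : Gamma0 N) (j : Fin 2) :
    ((tElt N z * γ : Gamma0 N) : SL(2, ℤ)) 0 j =
        (γ : SL(2, ℤ)) 0 j + z * (γ : SL(2, ℤ)) 1 j ∧
      ((tElt N z * γ : Gamma0 N) : SL(2, ℤ)) 1 j = (γ : SL(2, ℤ)) 1 j := by
  simp [tElt, Matrix.mul_apply, Fin.sum_univ_two]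

lemma lElt_mul_apply (z : ℤ) (γ : Gamma0 N) (j : Fin 2) :
    ((lElt N z * γ : Gamma0 N) : SL(2, ℤ)) 0 j = (γ : SL(2, ℤ)) 0 j ∧
      ((lElt N z * γ : Gamma0 N) : SL(2, ℤ)) 1 j =
        (N : ℤ) * z * (γ : SL(2, ℤ)) 0 j + (γ : SL(2, ℤ)) 1 j := by
  simp [lElt, Matrix.mul_apply, Fin.sum_univ_two]

variable [Fact ℓ.Prime]

/-- The homomorphism kills the elements with upper left entry one modulo `N`. -/
theorem eq_zero_of_congr_one (hℓN : ¬ ℓ ∣ N) (hu : IsParabolicHom (Gamma0 N) u)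
    (hkill : ∀ γ : Gamma0 N, ((N * ℓ * ℓ : ℕ) : ℤ) ∣ (γ : SL(2, ℤ)) 0 0 - 1 →
      ((N * ℓ * ℓ : ℕ) : ℤ) ∣ (γ : SL(2, ℤ)) 0 1 → ((N * ℓ * ℓ : ℕ) : ℤ) ∣ (γ : SL(2, ℤ)) 1 0 →
      ((N * ℓ * ℓ : ℕ) : ℤ) ∣ (γ : SL(2, ℤ)) 1 1 - 1 → u (Additive.ofMul γ) = 0)
    (γ : Gamma0 N) (ha : (N : ℤ) ∣ (γ : SL(2, ℤ)) 0 0 - 1) : u (Additive.ofMul γ) = 0 := by
  have hℓ : ℓ.Prime := Fact.out
  have hℓp : Prime (ℓ : ℤ) := Nat.prime_iff_prime_int.mp hℓ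
  have hNℓ : IsCoprime (N : ℤ) ((ℓ : ℤ) * ℓ) :=
    (Nat.isCoprime_iff_coprime.mpr (hℓ.coprime_iff_not_dvd.mpr hℓN).symm).mul_right
      (Nat.isCoprime_iff_coprime.mpr (hℓ.coprime_iff_not_dvd.mpr hℓN).symm)
  -- make the lower left entry prime to `ℓ`
  obtain ⟨γ₁, hγ₁, ha₁, hc₁⟩ : ∃ γ₁ : Gamma0 N, u (Additive.ofMul γ) = u (Additive.ofMul γ₁) ∧
      (N : ℤ) ∣ (γ₁ : SL(2, ℤ)) 0 0 - 1 ∧ ¬ (ℓ : ℤ) ∣ (γ₁ : SL(2, ℤ)) 1 0 := by
    by_cases hc : (ℓ : ℤ) ∣ (γ : SL(2, ℤ)) 1 0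
    · refine ⟨lElt N 1 * γ, (map_lElt_mul hu 1 γ).symm, by rw [(lElt_mul_apply 1 γ 0).1]; exact ha,
        fun h => ?_⟩
      rw [(lElt_mul_apply 1 γ 0).2, mul_one, dvd_add_left hc] at h
      rcases hℓp.dvd_or_dvd h with h' | h'
      · exact hℓN (Int.natCast_dvd_natCast.mp h')
      · refine hℓp.not_isUnit (isUnit_of_dvd_one ?_)
        have hd := (γ : SL(2, ℤ)).det_coe
        rw [Matrix.det_fin_two] at hd
        rw [← hd]
        exact dvd_sub (h'.mul_right _) (hc.mul_left _)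
    · exact ⟨γ, rfl, ha, hc⟩
  rw [hγ₁]
  -- make the upper left entry one
  have hco : IsCoprime ((γ₁ : SL(2, ℤ)) 1 0) ((ℓ : ℤ) * ℓ) :=
    ((hℓp.coprime_iff_not_dvd.mpr hc₁).symm).mul_right ((hℓp.coprime_iff_not_dvd.mpr hc₁).symm)
  obtain ⟨x, y, hxy⟩ := hco
  set z := (1 - (γ₁ : SL(2, ℤ)) 0 0) * x
  set γ₂ := tElt N z * γ₁ with hγ₂
  have ha₂ : ((N * ℓ * ℓ : ℕ) : ℤ) ∣ (γ₂ : SL(2, ℤ)) 0 0 - 1 := by
    rw [hγ₂, (tElt_mul_apply z γ₁ 0).1]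
    push_cast
    rw [mul_assoc (N : ℤ)]
    refine hNℓ.mul_dvd ?_ ⟨((γ₁ : SL(2, ℤ)) 0 0 - 1) * y, ?_⟩
    · have := dvd_add ha₁ ((dvd_gamma0 γ₁).mul_left z)
      convert this using 1; ring
    · simp only [z]; linear_combination (1 - (γ₁ : SL(2, ℤ)) 0 0) * hxy
  obtain ⟨c', hc'⟩ := dvd_gamma0 γ₂
  set γ₃ := lElt N (-c') * γ₂ with hγ₃
  have ha₃ : ((N * ℓ * ℓ : ℕ) : ℤ) ∣ (γ₃ : SL(2, ℤ)) 0 0 - 1 := by
    rwa [hγ₃, (lElt_mul_apply _ _ 0).1]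
  have hc₃ : ((N * ℓ * ℓ : ℕ) : ℤ) ∣ (γ₃ : SL(2, ℤ)) 1 0 := by
    rw [hγ₃, (lElt_mul_apply _ _ 0).2, hc']
    have e : (N : ℤ) * -c' * (γ₂ : SL(2, ℤ)) 0 0 + (N : ℤ) * c' =
      -((N : ℤ) * c') * ((γ₂ : SL(2, ℤ)) 0 0 - 1) := by ring
    rw [e]; exact ha₂.mul_left _
  have hd₃ : ((N * ℓ * ℓ : ℕ) : ℤ) ∣ (γ₃ : SL(2, ℤ)) 1 1 - 1 := by
    have hd := (γ₃ : SL(2, ℤ)).det_coe
    rw [Matrix.det_fin_two] at hd
    have e : (γ₃ : SL(2, ℤ)) 1 1 - 1 = (γ₃ : SL(2, ℤ)) 0 1 * (γ₃ : SL(2, ℤ)) 1 0 -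
      ((γ₃ : SL(2, ℤ)) 0 0 - 1) * (γ₃ : SL(2, ℤ)) 1 1 := by linear_combination hd
    rw [e]; exact dvd_sub (hc₃.mul_left _) (ha₃.mul_right _)
  set z' := -((γ₃ : SL(2, ℤ)) 0 1)
  set γ₄ := tElt N z' * γ₃ with hγ₄
  have h4 := hkill γ₄ (by
      rw [hγ₄, (tElt_mul_apply _ _ 0).1, add_sub_right_comm]
      exact dvd_add ha₃ (hc₃.mul_left _))
    (by
      rw [hγ₄, (tElt_mul_apply _ _ 1).1]
      have e : (γ₃ : SL(2, ℤ)) 0 1 + z' * (γ₃ : SL(2, ℤ)) 1 1 = z' * ((γ₃ : SL(2, ℤ)) 1 1 - 1) := by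
        simp only [z']; ring
      rw [e]; exact hd₃.mul_left _)
    (by rw [hγ₄, (tElt_mul_apply _ _ 0).2]; exact hc₃)
    (by rw [hγ₄, (tElt_mul_apply _ _ 1).2]; exact hd₃)
  rwa [hγ₄, map_tElt_mul hu, hγ₃, map_lElt_mul hu, hγ₂, map_tElt_mul hu] at h4

omit [Fact ℓ.Prime] in
/-- The values depend only on the lower right entry modulo `N`. -/
lemma eq_of_congr (hkill : ∀ γ : Gamma0 N, (N : ℤ) ∣ (γ : SL(2, ℤ)) 0 0 - 1 →
      u (Additive.ofMul γ) = 0) (γ γ' : Gamma0 N)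
    (h : (((γ : SL(2, ℤ)) 1 1 : ℤ) : ZMod N) = (((γ' : SL(2, ℤ)) 1 1 : ℤ) : ZMod N)) :
    u (Additive.ofMul γ) = u (Additive.ofMul γ') := by
  have h0 := hkill (γ * γ'⁻¹) ?_
  · rw [ofMul_mul, map_add, ofMul_inv, map_neg, ← sub_eq_add_neg, sub_eq_zero] at h0
    exact h0
  · rw [← ZMod.intCast_zmod_eq_zero_iff_dvd]
    have hc : (((γ : SL(2, ℤ)) 1 0 : ℤ) : ZMod N) = 0 := Gamma0_mem.mp γ.2
    have hc' : (((γ' : SL(2, ℤ)) 1 0 : ℤ) : ZMod N) = 0 := Gamma0_mem.mp γ'.2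
    have hd := congrArg (Int.cast : ℤ → ZMod N) (γ : SL(2, ℤ)).det_coe
    rw [Matrix.det_fin_two] at hd
    push_cast at hd
    rw [hc, mul_zero, sub_zero, h] at hd
    simp [Matrix.mul_apply, Fin.sum_univ_two, Matrix.adjugate_fin_two]
    linear_combination hd - (((γ : SL(2, ℤ)) 0 1 : ℤ) : ZMod N) * hc'

/-- A homomorphism through the lower right entry is multiplied by `ℓ + 1`. -/
theorem op_eq_of_congr (hℓN : ¬ ℓ ∣ N)
    (hkill : ∀ γ : Gamma0 N, (N : ℤ) ∣ (γ : SL(2, ℤ)) 0 0 - 1 → u (Additive.ofMul γ) = 0)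
    (γ : Gamma0 N) :
    (Period.transferDataT hℓN).op k u (Additive.ofMul γ) =
      ((ℓ : k) + 1) * u (Additive.ofMul γ) := by
  have : NeZero ℓ := ⟨(Fact.out : ℓ.Prime).ne_zero⟩
  set D := Period.transferDataT hℓN
  -- an element with lower right entry `ℓ` modulo `N`
  obtain ⟨s, t, hst⟩ := (Nat.isCoprime_iff_coprime.mpr
    ((Fact.out : ℓ.Prime).coprime_iff_not_dvd.mpr hℓN).symm : IsCoprime (N : ℤ) (ℓ : ℤ))
  set w₀ : Gamma0 N := ⟨⟨!![t, -s; (N : ℤ), (ℓ : ℤ)], by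
    rw [Matrix.det_fin_two_of]; linear_combination hst⟩, by simp [Gamma0_mem]⟩
  set W : OnePoint (ZMod ℓ) → Gamma0 N := fun x => x.elim 1 (fun _ => w₀) with hW
  have hkey : ∀ x, u (Additive.ofMul (D.factor γ x)) =
      u (Additive.ofMul (W x)) + u (Additive.ofMul γ) - u (Additive.ofMul (W (D.perm γ x))) := by
    intro x
    set f := D.factor γ x
    set y := D.perm γ x
    suffices h : (((W x * γ : Gamma0 N) : SL(2, ℤ)) 1 1 : ZMod N) =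
        (((f * W y : Gamma0 N) : SL(2, ℤ)) 1 1 : ZMod N) by
      have h1 := eq_of_congr hkill _ _ h
      rw [ofMul_mul, map_add, ofMul_mul, map_add] at h1
      linear_combination -h1
    have hmul : ∀ a b : Gamma0 N, (((a * b : Gamma0 N) : SL(2, ℤ)) 1 1 : ZMod N) =
        (((a : SL(2, ℤ)) 1 1 : ℤ) : ZMod N) * (((b : SL(2, ℤ)) 1 1 : ℤ) : ZMod N) := fun a b => by
      have ha : (((a : SL(2, ℤ)) 1 0 : ℤ) : ZMod N) = 0 := Gamma0_mem.mp a.2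
      simp [Matrix.mul_apply, Fin.sum_univ_two, ha]
    rw [hmul, hmul]
    have hc : (((γ : SL(2, ℤ)) 1 0 : ℤ) : ZMod N) = 0 := Gamma0_mem.mp γ.2
    have hf : (((f : SL(2, ℤ)) 1 0 : ℤ) : ZMod N) = 0 := Gamma0_mem.mp f.2
    have hrep : D.rep x * ((γ : SL(2, ℤ)) : GL (Fin 2) ℝ) =
        ((f : SL(2, ℤ)) : GL (Fin 2) ℝ) * D.rep y := D.factor_spec γ x
    clear_value f y
    have h' := congrArg (fun A : GL (Fin 2) ℝ => (A : Matrix (Fin 2) (Fin 2) ℝ) 1 1) hrep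
    induction x using OnePoint.rec <;> induction y using OnePoint.rec <;>
      simp [D, Period.transferDataT, Units.val_mul, Matrix.mul_apply, Fin.sum_univ_two,
        ModularForm.val_heckeDiagMatrix (Fact.out : ℓ.Prime).ne_zero,
        ModularForm.val_heckeMatrix (Fact.out : ℓ.Prime).ne_zero, -ZMod.natCast_val] at h' <;>
      norm_cast at h' <;>
      have h2 := congrArg (Int.cast : ℤ → ZMod N) h' <;>
      push_cast [hf, hc] at h2 <;>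
      simp [W, w₀] <;>
      linear_combination h2
  rw [Period.TransferData.op_apply, Finset.sum_congr rfl fun x _ => hkey x,
    Finset.sum_sub_distrib, Finset.sum_add_distrib,
    Equiv.sum_comp (D.perm γ) (fun x => u (Additive.ofMul (W x))), Finset.sum_const,
    Finset.card_univ, nsmul_eq_mul, show Fintype.card (OnePoint (ZMod ℓ)) = ℓ + 1 from
      Fintype.card_option.trans (by rw [ZMod.card])]
  push_cast; ring

end FermatAgent.LR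

end
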