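import Fermat.Agent.LR.Ihara.Tree

/-!
# The potential on the tree and the extended homomorphism

If `(u, v)` is in the kernel of the two degeneracy maps from `Γ₀(N)` to `Γ₀(N q)`, then `u` and `v`
are glued along the edges of the tree of `PGL₂(ℚ_q)` to a potential `theta` on the integral matrices
of determinant a power of `q`. Its change under right translation is constant, which gives a
homomorphism of the level `N` subgroup of `SL₂(ℤ[1/q])` extending `u` (`exists_extension`).
-/

set_option autoImplicit false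

noncomputable section

open scoped MatrixGroups
open Matrix CongruenceSubgroup ModularCurve.Period

namespace FermatAgent.LR

local notation "Mat" => Matrix (Fin 2) (Fin 2) ℤ

variable {q N : ℕ} {k : Type*} [Field k] (u v : Additive (Gamma0 N) →+ k)

/-- The homomorphism used on matrices of degree `n`. -/
def wHom (n : ℕ) : Additive (Gamma0 N) →+ k := if Even n then u else -v

variable (q) in
/-- The kernel relation of the two degeneracy maps. -/
def PairRel : Prop := ∀ γ γ' : Gamma0 N, (q : ℤ) ∣ (γ : SL(2, ℤ)) 1 0 →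
  !![(q : ℤ), 0; 0, 1] * ((γ : SL(2, ℤ)) : Mat) = ((γ' : SL(2, ℤ)) : Mat) * !![(q : ℤ), 0; 0, 1] →
    u (Additive.ofMul γ) + v (Additive.ofMul γ') = 0

open scoped Classical in
variable (q) in
/-- The potential. -/
def theta : ℕ → Mat → k
  | 0, A => if h : A.det = 1 ∧ (N : ℤ) ∣ A 1 0 then
      u (Additive.ofMul (gamma0_of_entries A h.1 h.2).choose) else 0
  | n + 1, A => if IsPrim q A then
      (if h : ∃ p : Gamma0 N × Mat, InT q N n p.2 ∧ A = (p.1 : SL(2, ℤ)) * (stepMat q n * p.2) then
        wHom u v (n + 1) (Additive.ofMul h.choose.1) + theta n h.choose.2 else 0)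
    else theta (n - 1) (Matrix.of fun i j => A i j / (q : ℤ))
  termination_by n => n
  decreasing_by all_goals omega

lemma theta_zero (γ : Gamma0 N) :
    theta q u v 0 ((γ : SL(2, ℤ)) : Mat) = u (Additive.ofMul γ) := by
  rw [theta, dif_pos ⟨(γ : SL(2, ℤ)).det_coe, dvd_gamma0 γ⟩]
  refine congrArg u (congrArg Additive.ofMul (Subtype.ext (Subtype.ext ?_)))
  exact (gamma0_of_entries _ (γ : SL(2, ℤ)).det_coe (dvd_gamma0 γ)).choose_spec

variable (hq : q.Prime) (hqN : ¬ q ∣ N) (hrel : PairRel q u v)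

include hq hrel in
lemma wHom_step {n : ℕ} (g τ : Gamma0 N)
    (h : ((g : SL(2, ℤ)) : Mat) * stepMat q n = stepMat q n * ((τ : SL(2, ℤ)) : Mat)) :
    wHom u v (n + 1) (Additive.ofMul g) = wHom u v n (Additive.ofMul τ) := by
  have e := fun a b => congrFun (congrFun h a) b
  rcases Nat.even_or_odd n with he | ho
  · rw [wHom, wHom, if_pos he, if_neg (Nat.not_even_iff_odd.mpr he.add_one)]
    rw [stepMat, if_pos he] at h
    have hdvd : (q : ℤ) ∣ (τ : SL(2, ℤ)) 1 0 := by
      have := congrFun (congrFun h 1) 0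
      simp [Matrix.mul_apply, Fin.sum_univ_two] at this
      exact Dvd.intro_left _ this
    have h0 := hrel τ g hdvd h.symm
    rw [AddMonoidHom.neg_apply]
    linear_combination -h0
  · rw [wHom, wHom, if_neg (Nat.not_even_iff_odd.mpr ho), if_pos ho.add_one]
    rw [stepMat, if_neg (Nat.not_even_iff_odd.mpr ho)] at h
    have hdvd : (q : ℤ) ∣ (g : SL(2, ℤ)) 1 0 := by
      have := congrFun (congrFun h 1) 0
      simp [Matrix.mul_apply, Fin.sum_univ_two] at this
      exact ⟨_, this⟩
    have hc : !![(q : ℤ), 0; 0, 1] * ((g : SL(2, ℤ)) : Mat) =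
        ((τ : SL(2, ℤ)) : Mat) * !![(q : ℤ), 0; 0, 1] := by
      have hqz : (q : ℤ) ≠ 0 := Int.natCast_ne_zero.mpr hq.ne_zero
      have h1 := congrArg (fun M => !![(q : ℤ), 0; 0, 1] * M * !![(q : ℤ), 0; 0, 1]) h
      have e1 : !![(1 : ℤ), 0; 0, (q : ℤ)] * !![(q : ℤ), 0; 0, 1] = (q : ℤ) • (1 : Mat) := by
        ext i j; fin_cases i <;> fin_cases j <;> simp [Matrix.mul_apply, Fin.sum_univ_two]
      have e2 : !![(q : ℤ), 0; 0, 1] * !![(1 : ℤ), 0; 0, (q : ℤ)] = (q : ℤ) • (1 : Mat) := by
        ext i j; fin_cases i <;> fin_cases j <;> simp [Matrix.mul_apply, Fin.sum_univ_two]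
      have hl : !![(q : ℤ), 0; 0, 1] * (((g : SL(2, ℤ)) : Mat) * !![(1 : ℤ), 0; 0, (q : ℤ)]) *
          !![(q : ℤ), 0; 0, 1] = (q : ℤ) • (!![(q : ℤ), 0; 0, 1] * ((g : SL(2, ℤ)) : Mat)) := by
        rw [Matrix.mul_assoc, Matrix.mul_assoc ((g : SL(2, ℤ)) : Mat), e1, Matrix.mul_smul,
          Matrix.mul_one, Matrix.mul_smul]
      have hr : !![(q : ℤ), 0; 0, 1] * (!![(1 : ℤ), 0; 0, (q : ℤ)] * ((τ : SL(2, ℤ)) : Mat)) *
          !![(q : ℤ), 0; 0, 1] = (q : ℤ) • (((τ : SL(2, ℤ)) : Mat) * !![(q : ℤ), 0; 0, 1]) := by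
        rw [← Matrix.mul_assoc, e2, Matrix.smul_mul, Matrix.one_mul, Matrix.smul_mul]
      beta_reduce at h1
      rw [hl, hr] at h1
      exact smul_right_injective Mat hqz h1
    have h0 := hrel g τ hdvd hc
    rw [AddMonoidHom.neg_apply]
    linear_combination h0

include hq hqN in
lemma exists_parent' {n : ℕ} {A : Mat} (h : InT q N (n + 1) A) :
    ∃ p : Gamma0 N × Mat, InT q N n p.2 ∧ A = (p.1 : SL(2, ℤ)) * (stepMat q n * p.2) := by
  obtain ⟨γ, B, hB, he⟩ := exists_parent hq hqN h
  exact ⟨(γ, B), hB, he⟩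

lemma not_isPrim_mul_left (g : Gamma0 N) {A : Mat} (hA : ¬ IsPrim q A) :
    ¬ IsPrim q (((g : SL(2, ℤ)) : Mat) * A) := by
  rw [IsPrim, not_not] at hA ⊢
  exact fun i j => by rw [mul_entry]; exact dvd_add ((hA 0 j).mul_left _) ((hA 1 j).mul_left _)

lemma isPrim_mul_left (g : Gamma0 N) {A : Mat} :
    IsPrim q (((g : SL(2, ℤ)) : Mat) * A) ↔ IsPrim q A := by
  refine ⟨fun h => by_contra fun hA => not_isPrim_mul_left g hA h, fun h => by_contra fun hA => ?_⟩
  have := not_isPrim_mul_left g⁻¹ hA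
  rw [← Matrix.mul_assoc, Subgroup.coe_inv, ← Matrix.SpecialLinearGroup.coe_mul, inv_mul_cancel,
    Matrix.SpecialLinearGroup.coe_one, Matrix.one_mul] at this
  exact this h

lemma divide {A : Mat} (hA : ¬ IsPrim q A) :
    (q : ℤ) • (Matrix.of fun i j => A i j / (q : ℤ) : Mat) = A := by
  rw [IsPrim, not_not] at hA
  ext i j
  simpa using Int.mul_ediv_cancel' (hA i j)

include hq hqN in
lemma InT.divide_mem {n : ℕ} {A : Mat} (h : InT q N (n + 1) A) (hA : ¬ IsPrim q A) :
    1 ≤ n ∧ InT q N (n - 1) (Matrix.of fun i j => A i j / (q : ℤ)) := by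
  have e := divide hA
  set B : Mat := Matrix.of fun i j => A i j / (q : ℤ)
  have hqz : (q : ℤ) ≠ 0 := Int.natCast_ne_zero.mpr hq.ne_zero
  have hd := h.1
  rw [← e, Matrix.det_smul, Fintype.card_fin] at hd
  have hn : 1 ≤ n := by
    by_contra hn
    obtain rfl : n = 0 := by omega
    have h1 : (q : ℤ) * B.det = 1 := mul_left_cancel₀ hqz (by linear_combination hd)
    exact (Nat.prime_iff_prime_int.mp hq).not_isUnit (IsUnit.of_mul_eq_one _ h1)
  obtain ⟨m, rfl⟩ : ∃ m, n = m + 1 := ⟨n - 1, by omega⟩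
  refine ⟨hn, mul_left_cancel₀ (pow_ne_zero 2 hqz) (by rw [hd, Nat.add_sub_cancel]; ring), ?_⟩
  have h10 := h.2
  rw [← e, Matrix.smul_apply, smul_eq_mul] at h10
  exact (isCoprime_level hq hqN).symm.dvd_of_dvd_mul_left h10

include hq hqN hrel in
/-- Equivariance of the potential. -/
theorem theta_left_mul (n : ℕ) : ∀ (γ : Gamma0 N) (A : Mat), InT q N n A →
    theta q u v n (((γ : SL(2, ℤ)) : Mat) * A) =
      wHom u v n (Additive.ofMul γ) + theta q u v n A := by
  induction n using Nat.strong_induction_on with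
  | _ n ih =>
    intro γ A hA
    match n with
    | 0 =>
      obtain ⟨g, hg⟩ := gamma0_of_entries (N := N) A (by simpa using hA.1) hA.2
      rw [← hg, ← Matrix.SpecialLinearGroup.coe_mul, ← Subgroup.coe_mul, theta_zero, theta_zero,
        wHom, if_pos Even.zero, ← map_add, ← ofMul_mul]
    | n + 1 =>
      by_cases hp : IsPrim q A
      · have hp' := (isPrim_mul_left γ).mpr hp
        rw [theta, if_pos hp', theta, if_pos hp, dif_pos (exists_parent' hq hqN hA),
          dif_pos (exists_parent' hq hqN (hA.left_mul γ))]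
        set p := (exists_parent' hq hqN hA).choose with hpd
        obtain ⟨hB, he⟩ := (exists_parent' hq hqN hA).choose_spec
        set p' := (exists_parent' hq hqN (hA.left_mul γ)).choose with hpd'
        obtain ⟨hB', he'⟩ := (exists_parent' hq hqN (hA.left_mul γ)).choose_spec
        rw [← hpd] at hB he
        rw [← hpd'] at hB' he'
        set g : Gamma0 N := p'.1⁻¹ * (γ * p.1)
        have hg : ((g : SL(2, ℤ)) : Mat) * (stepMat q n * p.2) = stepMat q n * p'.2 := by
          simp only [g, Subgroup.coe_mul, Matrix.SpecialLinearGroup.coe_mul, Matrix.mul_assoc]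
          rw [← he, he', ← Matrix.mul_assoc, ← Matrix.SpecialLinearGroup.coe_mul,
            ← Subgroup.coe_mul,
            inv_mul_cancel]
          simp
        obtain ⟨τ, hτd, hτ, hcomm⟩ := parent_unique hq (by
          rw [← isPrim_mul_left p.1, ← he]; exact hp) g hg
        have hτN : (N : ℤ) ∣ τ 1 0 := by
          have h10 : (N : ℤ) ∣ (((g : SL(2, ℤ)) : Mat) * stepMat q n) 1 0 := by
            rw [mul_entry, stepMat_10, mul_zero, add_zero]; exact (dvd_gamma0 g).mul_right _
          rw [hcomm, mul_entry, stepMat_10, zero_mul, zero_add] at h10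
          refine (IsCoprime.dvd_of_dvd_mul_left ?_ h10)
          rcases Nat.even_or_odd n with he' | ho'
          · rw [stepMat, if_pos he']; simpa using isCoprime_one_right
          · rw [stepMat, if_neg (Nat.not_even_iff_odd.mpr ho')]
            simpa using (isCoprime_level hq hqN).symm
        obtain ⟨t, ht⟩ := gamma0_of_entries τ hτd hτN
        have hw := wHom_step u v hq hrel g t (by rw [hcomm, ht])
        rw [hτ, ← ht, ih n (Nat.lt_succ_self n) t p.2 hB, ← hw,
          show g = p'.1⁻¹ * (γ * p.1) from rfl]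
        simp only [ofMul_mul, ofMul_inv, map_add, map_neg]
        abel
      · have hp' := not_isPrim_mul_left γ hp
        obtain ⟨hn, hB⟩ := hA.divide_mem hq hqN hp
        rw [theta, if_neg hp', theta, if_neg hp]
        set B : Mat := Matrix.of fun i j => A i j / (q : ℤ)
        have hdiv : (Matrix.of fun i j => (((γ : SL(2, ℤ)) : Mat) * A) i j / (q : ℤ) : Mat) =
            ((γ : SL(2, ℤ)) : Mat) * B := by
          refine smul_right_injective Mat (Int.natCast_ne_zero.mpr hq.ne_zero) ?_
          show (q : ℤ) • _ = (q : ℤ) • _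
          rw [divide hp', ← Matrix.mul_smul, divide hp]
        rw [hdiv, ih (n - 1) (by omega) γ B hB]
        congr 1
        obtain ⟨m, rfl⟩ : ∃ m, n = m + 1 := ⟨n - 1, by omega⟩
        simp [wHom, Nat.even_add_one]

include hq in
lemma theta_smul (n : ℕ) (A : Mat) : theta q u v (n + 2) ((q : ℤ) • A) = theta q u v n A := by
  have hp : ¬ IsPrim q ((q : ℤ) • A) := by
    rw [IsPrim, not_not]; exact fun i j => by simp
  rw [theta, if_neg hp]
  congr 1
  exact smul_right_injective Mat (Int.natCast_ne_zero.mpr hq.ne_zero) (divide hp)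

include hq hqN hrel in
/-- The potential does not change along an edge. -/
theorem theta_step (n : ℕ) : ∀ (A : Mat), InT q N n A →
    theta q u v (n + 1) (stepMat q n * A) = theta q u v n A := by
  induction n using Nat.strong_induction_on with
  | _ n ih =>
    intro A hA
    have hS := hA.step_mul
    by_cases hp : IsPrim q (stepMat q n * A)
    · rw [theta, if_pos hp, dif_pos (exists_parent' hq hqN hS)]
      set p := (exists_parent' hq hqN hS).choose with hpd
      obtain ⟨hB, he⟩ := (exists_parent' hq hqN hS).choose_spec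
      rw [← hpd] at hB he
      have hg : (((p.1)⁻¹ : Gamma0 N) : SL(2, ℤ)) * (stepMat q n * A) = stepMat q n * p.2 := by
        rw [he, ← Matrix.mul_assoc, ← Matrix.SpecialLinearGroup.coe_mul, ← Subgroup.coe_mul,
          inv_mul_cancel]
        simp
      obtain ⟨τ, hτd, hτ, hcomm⟩ := parent_unique hq hp _ hg
      have hτN : (N : ℤ) ∣ τ 1 0 := by
        have h10 : (N : ℤ) ∣ ((((p.1)⁻¹ : Gamma0 N) : SL(2, ℤ)) * stepMat q n : Mat) 1 0 := by
          rw [mul_entry, stepMat_10, mul_zero, add_zero]; exact (dvd_gamma0 (p.1)⁻¹).mul_right _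
        rw [hcomm, mul_entry, stepMat_10, zero_mul, zero_add] at h10
        refine (IsCoprime.dvd_of_dvd_mul_left ?_ h10)
        rcases Nat.even_or_odd n with he' | ho'
        · rw [stepMat, if_pos he']; simpa using isCoprime_one_right
        · rw [stepMat, if_neg (Nat.not_even_iff_odd.mpr ho')]
          simpa using (isCoprime_level hq hqN).symm
      obtain ⟨t, ht⟩ := gamma0_of_entries τ hτd hτN
      have hw := wHom_step u v hq hrel (p.1)⁻¹ t (by rw [hcomm, ht])
      rw [hτ, ← ht, theta_left_mul u v hq hqN hrel n t A hA, ← hw, ofMul_inv, map_neg]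
      abel
    · obtain ⟨hn, hB⟩ := hS.divide_mem hq hqN hp
      rw [theta, if_neg hp]
      set B : Mat := Matrix.of fun i j => (stepMat q n * A) i j / (q : ℤ)
      obtain ⟨m, rfl⟩ : ∃ m, n = m + 1 := ⟨n - 1, by omega⟩
      simp only [Nat.add_sub_cancel] at hB ⊢
      have hAB : stepMat q m * B = A := by
        refine smul_right_injective Mat (Int.natCast_ne_zero.mpr hq.ne_zero) ?_
        show (q : ℤ) • _ = (q : ℤ) • _
        have e : stepMat q m * stepMat q (m + 1) = (q : ℤ) • (1 : Mat) := by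
          rcases Nat.even_or_odd m with h | h
          · rw [stepMat, stepMat, if_pos h, if_neg (Nat.not_even_iff_odd.mpr h.add_one)]
            ext i j; fin_cases i <;> fin_cases j <;> simp [Matrix.mul_apply, Fin.sum_univ_two]
          · rw [stepMat, stepMat, if_pos h.add_one, if_neg (Nat.not_even_iff_odd.mpr h)]
            ext i j; fin_cases i <;> fin_cases j <;> simp [Matrix.mul_apply, Fin.sum_univ_two]
        rw [← Matrix.mul_smul, divide hp, ← Matrix.mul_assoc, e, Matrix.smul_mul, Matrix.one_mul]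
      conv_rhs => rw [← hAB]
      exact (ih m (Nat.lt_succ_self m) B hB).symm

lemma InT.mul_right {n m : ℕ} {A C : Mat} (hA : InT q N n A) (hC : InT q N m C) :
    InT q N (n + m) (A * C) :=
  ⟨by rw [Matrix.det_mul, hA.1, hC.1, pow_add], by
    rw [mul_entry]; exact dvd_add (hA.2.mul_right _) (hC.2.mul_left _)⟩

include hq hqN hrel in
/-- Right translation changes the potential by a constant. -/
theorem theta_mul_right (m : ℕ) (C : Mat) (hC : InT q N (2 * m) C) (n : ℕ) :
    ∀ A : Mat, InT q N n A →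
      theta q u v (n + 2 * m) (A * C) = theta q u v n A + theta q u v (2 * m) C := by
  induction n using Nat.strong_induction_on with
  | _ n ih =>
    intro A hA
    have hev : ∀ n, (Even (n + 2 * m) ↔ Even n) := fun n => by simp [Nat.even_add]
    match n with
    | 0 =>
      obtain ⟨g, hg⟩ := gamma0_of_entries (N := N) A (by simpa using hA.1) hA.2
      rw [← hg, Nat.zero_add, theta_left_mul u v hq hqN hrel (2 * m) g C hC, theta_zero, wHom,
        if_pos (by simp)]
    | n + 1 =>
      by_cases hp : IsPrim q A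
      · obtain ⟨γ, B, hB, rfl⟩ := exists_parent hq hqN hA
        have hw : wHom u v (n + 1 + 2 * m) = wHom u v (n + 1) := by
          simp only [wHom, hev]
        have hs : stepMat q (n + 2 * m) = stepMat q n := by simp only [stepMat, hev]
        have hBC := hB.mul_right hC
        rw [Matrix.mul_assoc, show n + 1 + 2 * m = (n + 2 * m) + 1 by omega,
          Matrix.mul_assoc (stepMat q n), ← hs,
          theta_left_mul u v hq hqN hrel _ γ _ hBC.step_mul, theta_step u v hq hqN hrel _ _ hBC,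
          hs, theta_left_mul u v hq hqN hrel _ γ _ hB.step_mul, theta_step u v hq hqN hrel _ _ hB,
          ih n (Nat.lt_succ_self n) B hB, show n + 2 * m + 1 = n + 1 + 2 * m by omega, hw]
        abel
      · obtain ⟨hn, hB⟩ := hA.divide_mem hq hqN hp
        obtain ⟨j, rfl⟩ : ∃ j, n = j + 1 := ⟨n - 1, by omega⟩
        rw [← divide hp, Matrix.smul_mul, show j + 1 + 1 + 2 * m = (j + 2 * m) + 2 by omega,
          theta_smul u v hq, show j + 1 + 1 = j + 2 by omega, theta_smul u v hq]
        simp only [Nat.add_sub_cancel] at hB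
        exact ih j (by omega) _ hB

lemma exists_clear {g : SL(2, ℚ)} (hg : g ∈ qGamma0 q N) :
    ∃ (m : ℕ) (C : Mat), InT q N (2 * m) C ∧ ∀ i j, (C i j : ℚ) = (q : ℚ) ^ m * g i j := by
  obtain ⟨hint, hN⟩ := hg
  obtain ⟨y, hy, hy10⟩ := mem_qMul.mp hN
  have hex : ∀ {x : ℚ}, x ∈ qInt q →
      ∃ m : ℕ, ∀ m', m ≤ m' → ∃ z : ℤ, (z : ℚ) = (q : ℚ) ^ m' * x := by
    intro x hx
    obtain ⟨m, z, hz⟩ := mem_qInt.mp hx
    refine ⟨m, fun m' hm' => ⟨z * (q : ℤ) ^ (m' - m), ?_⟩⟩
    push_cast
    rw [← hz, show m' = (m' - m) + m by omega, pow_add, Nat.add_sub_cancel]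
    ring
  choose mf hmf using fun p : Fin 2 × Fin 2 => hex (hint p.1 p.2)
  obtain ⟨my, hmy⟩ := hex hy
  set m := (∑ p, mf p) + my
  choose z hz using fun i j => hmf (i, j) m
    ((Finset.single_le_sum (fun p _ => Nat.zero_le (mf p)) (Finset.mem_univ (i, j))).trans
      (Nat.le_add_right _ _))
  refine ⟨m, Matrix.of z, ⟨?_, ?_⟩, fun i j => hz i j⟩
  · have : ((Matrix.of z : Mat).det : ℚ) = (((q : ℤ) ^ (2 * m) : ℤ) : ℚ) := by
      rw [Matrix.det_fin_two]
      push_cast
      simp only [Matrix.of_apply, hz]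
      rw [pow_mul', pow_two]
      linear_combination (q : ℚ) ^ m * (q : ℚ) ^ m * sl_det_eq g
    exact_mod_cast this
  · obtain ⟨w, hw⟩ := hmy m (Nat.le_add_left _ _)
    refine ⟨w, ?_⟩
    have : ((z 1 0 : ℤ) : ℚ) = (((N : ℤ) * w : ℤ) : ℚ) := by
      push_cast
      rw [hz, hw, ← hy10]
      ring
    exact_mod_cast this

include hq in
lemma theta_pow_smul (j n : ℕ) (C : Mat) :
    theta q u v (n + 2 * j) ((q : ℤ) ^ j • C) = theta q u v n C := by
  induction j with
  | zero => simp
  | succ j ih =>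
    rw [show n + 2 * (j + 1) = (n + 2 * j) + 2 by ring, pow_succ', mul_smul, theta_smul u v hq, ih]

/-- The map from `Γ₀(N)`. -/
def castQ (γ : SL(2, ℤ)) : SL(2, ℚ) := Matrix.SpecialLinearGroup.map (Int.castRingHom ℚ) γ

lemma castQ_apply (γ : SL(2, ℤ)) (i j : Fin 2) : castQ γ i j = (γ i j : ℚ) := rfl

lemma castQ_mem (γ : Gamma0 N) : castQ (γ : SL(2, ℤ)) ∈ qGamma0 q N := by
  refine ⟨fun i j => by rw [castQ_apply]; exact intCast_mem_qInt _, ?_⟩
  obtain ⟨c, hc⟩ := dvd_gamma0 γ
  rw [castQ_apply, hc, Int.cast_mul, Int.cast_natCast]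
  exact self_mul_mem_qMul (intCast_mem_qInt c)

include hq hqN hrel in
/-- **The extension**: `u` extends to the level `N` subgroup of `SL₂(ℤ[1/q])`. -/
theorem exists_extension :
    ∃ Φ : SL(2, ℚ) → k, (∀ g ∈ qGamma0 q N, ∀ h ∈ qGamma0 q N, Φ (g * h) = Φ g + Φ h) ∧
      ∀ γ : Gamma0 N, Φ (castQ (γ : SL(2, ℤ))) = u (Additive.ofMul γ) := by
  classical
  let Φ : SL(2, ℚ) → k := fun g => if hg : g ∈ qGamma0 q N then
    theta q u v (2 * (exists_clear hg).choose) (exists_clear hg).choose_spec.choose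
    else 0
  have key : ∀ g ∈ qGamma0 q N, ∀ (m : ℕ) (C : Mat), InT q N (2 * m) C →
      (∀ i j, (C i j : ℚ) = (q : ℚ) ^ m * g i j) → Φ g = theta q u v (2 * m) C := by
    intro g hg m C hC he
    simp only [Φ, dif_pos hg]
    set m' := (exists_clear hg).choose
    obtain ⟨hC', he'⟩ := (exists_clear hg).choose_spec.choose_spec
    set C' := (exists_clear hg).choose_spec.choose
    have hCC : (q : ℤ) ^ m • C' = (q : ℤ) ^ m' • C := by
      ext i j
      have : (((q : ℤ) ^ m * C' i j : ℤ) : ℚ) = (((q : ℤ) ^ m' * C i j : ℤ) : ℚ) := by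
        push_cast; rw [he, he']; ring
      simpa using Int.cast_injective this
    rw [← theta_pow_smul u v hq m (2 * m') C', hCC, show 2 * m' + 2 * m = 2 * m + 2 * m' by ring,
      theta_pow_smul u v hq m' (2 * m) C]
  refine ⟨Φ, fun g hg h hh => ?_, fun γ => ?_⟩
  · obtain ⟨m, C, hC, he⟩ := exists_clear hg
    obtain ⟨m', C', hC', he'⟩ := exists_clear hh
    have hCC := hC.mul_right hC'
    rw [← Nat.mul_add] at hCC
    rw [key g hg m C hC he, key h hh m' C' hC' he', key _ (mul_mem hg hh) (m + m') (C * C') hCC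
      (fun i j => by
        rw [mul_entry, sl_mul_apply]; push_cast; rw [he, he, he', he', pow_add]; ring),
      Nat.mul_add, theta_mul_right u v hq hqN hrel m' C' hC' (2 * m) C hC]
  · rw [key _ (castQ_mem γ) 0 ((γ : SL(2, ℤ)) : Mat)
      ⟨by simp, dvd_gamma0 γ⟩ (fun i j => by simp [castQ_apply]), Nat.mul_zero, theta_zero]

end FermatAgent.LR

end
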