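import Fermat.Agent.LR.Ihara.Potential
import Fermat.Agent.Period.Hecke

/-!
# The square of a Hecke operator on the homomorphisms in the kernel
-/

set_option autoImplicit false

noncomputable section

open scoped MatrixGroups OnePoint
open Matrix CongruenceSubgroup ModularCurve.Period
open P2MW.S_ModularForm_heckeT_slash_eq_self_of_mem_Gamma0.ModularForm
open HeckeSlashInvariance

namespace FermatAgent.LR

variable {q N ℓ : ℕ} [Fact ℓ.Prime] {k : Type*} [Field k] (hℓN : ¬ ℓ ∣ N)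

lemma castQ_mem_qPrincipal {M : ℕ} {γ : SL(2, ℤ)} (h00 : (M : ℤ) ∣ γ 0 0 - 1)
    (h01 : (M : ℤ) ∣ γ 0 1) (h10 : (M : ℤ) ∣ γ 1 0) (h11 : (M : ℤ) ∣ γ 1 1 - 1) :
    castQ γ ∈ qPrincipal q M := by
  have key : ∀ {x : ℤ}, (M : ℤ) ∣ x → (x : ℚ) ∈ qMul q M := fun {x} hx => by
    obtain ⟨c, rfl⟩ := hx
    push_cast
    exact self_mul_mem_qMul (intCast_mem_qInt c)
  refine ⟨?_, ?_, ?_, ?_⟩
  · rw [castQ_apply]; simpa using key h00
  · rw [castQ_apply]; exact key h01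
  · rw [castQ_apply]; exact key h10
  · rw [castQ_apply]; simpa using key h11

lemma perm_eq_self_of_congr (γ : Gamma0 N) (h00 : (ℓ : ℤ) ∣ (γ : SL(2, ℤ)) 0 0 - 1)
    (h01 : (ℓ : ℤ) ∣ (γ : SL(2, ℤ)) 0 1) (h10 : (ℓ : ℤ) ∣ (γ : SL(2, ℤ)) 1 0)
    (h11 : (ℓ : ℤ) ∣ (γ : SL(2, ℤ)) 1 1 - 1) (x : OnePoint (ZMod ℓ)) :
    (Period.transferDataT hℓN).perm γ x = x := by
  have h : redMatrix ℓ (γ : SL(2, ℤ)) = 1 := by
    have key : ∀ {x : ℤ}, (ℓ : ℤ) ∣ x → (x : ZMod ℓ) = 0 := fun hx =>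
      (ZMod.intCast_zmod_eq_zero_iff_dvd _ _).mpr hx
    have e0 := key h00
    have e1 := key h11
    push_cast at e0 e1
    ext i j
    fin_cases i <;> fin_cases j
    · simpa using sub_eq_zero.mp e1
    · simpa using key h01
    · simpa using key h10
    · simpa using sub_eq_zero.mp e0
  show redMatrix ℓ (γ : SL(2, ℤ)) • x = x
  rw [h, one_smul]

lemma castQ_factor_infty (γ : Gamma0 N) (hp : (Period.transferDataT hℓN).perm γ ∞ = ∞) :
    castQ ((Period.transferDataT hℓN).factor γ ∞ : SL(2, ℤ)) =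
      dil (natUnit ℓ) (castQ (γ : SL(2, ℤ))) := by
  have h := (Period.transferDataT hℓN).factor_spec γ ∞
  rw [hp] at h
  set f := (Period.transferDataT hℓN).factor γ ∞
  have h' := congrArg (fun A : GL (Fin 2) ℝ => (A : Matrix (Fin 2) (Fin 2) ℝ)) h
  simp only [Units.val_mul, Period.transferDataT, heckeRep_infty,
    ModularForm.val_heckeDiagMatrix (Fact.out : ℓ.Prime).ne_zero] at h'
  have e := fun i j => congrFun (congrFun h' i) j
  have h00 := e 0 0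
  have h01 := e 0 1
  have h10 := e 1 0
  have h11 := e 1 1
  simp [Matrix.mul_apply, Fin.sum_univ_two, -ZMod.natCast_val] at h00 h01 h10 h11
  have hℓ : (ℓ : ℝ) ≠ 0 := Nat.cast_ne_zero.mpr (Fact.out : ℓ.Prime).ne_zero
  have hℓQ : (ℓ : ℚ) ≠ 0 := Nat.cast_ne_zero.mpr (Fact.out : ℓ.Prime).ne_zero
  refine sl_ext ?_ ?_ ?_ ?_ <;> simp [castQ_apply]
  · have : ((f : SL(2, ℤ)) 0 0 : ℝ) = ((γ : SL(2, ℤ)) 0 0 : ℝ) :=
      mul_right_cancel₀ hℓ (by linarith)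
    exact_mod_cast this
  · exact_mod_cast h01.symm
  · rw [eq_inv_mul_iff_mul_eq₀ hℓQ]
    have : (ℓ : ℝ) * ((f : SL(2, ℤ)) 1 0 : ℝ) = ((γ : SL(2, ℤ)) 1 0 : ℝ) := by linarith
    exact_mod_cast this
  · exact_mod_cast h11.symm

lemma castQ_factor_coe (γ : Gamma0 N) (j : ZMod ℓ)
    (hp : (Period.transferDataT hℓN).perm γ (j : OnePoint (ZMod ℓ)) = (j : OnePoint (ZMod ℓ))) :
    castQ ((Period.transferDataT hℓN).factor γ (j : OnePoint (ZMod ℓ)) : SL(2, ℤ)) =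
      dil (natUnit ℓ)⁻¹
        (uMat (j.val : ℚ) * castQ (γ : SL(2, ℤ)) * (uMat (j.val : ℚ))⁻¹) := by
  have h := (Period.transferDataT hℓN).factor_spec γ (j : OnePoint (ZMod ℓ))
  rw [hp] at h
  set f := (Period.transferDataT hℓN).factor γ (j : OnePoint (ZMod ℓ))
  have h' := congrArg (fun A : GL (Fin 2) ℝ => (A : Matrix (Fin 2) (Fin 2) ℝ)) h
  simp only [Units.val_mul, Period.transferDataT, heckeRep_coe,
    ModularForm.val_heckeMatrix (Fact.out : ℓ.Prime).ne_zero] at h'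
  have e := fun i j => congrFun (congrFun h' i) j
  have h00 := e 0 0
  have h01 := e 0 1
  have h10 := e 1 0
  have h11 := e 1 1
  simp [Matrix.mul_apply, Fin.sum_univ_two, -ZMod.natCast_val] at h00 h01 h10 h11
  obtain ⟨u0, u1, u2, u3⟩ := sl_inv_apply (uMat (j.val : ℚ))
  have hℓQ : (ℓ : ℚ) ≠ 0 := Nat.cast_ne_zero.mpr (Fact.out : ℓ.Prime).ne_zero
  set jv := j.val
  have c00 : (((γ : SL(2, ℤ)) 0 0 : ℚ)) + jv * ((γ : SL(2, ℤ)) 1 0 : ℚ) =
      ((f : SL(2, ℤ)) 0 0 : ℚ) := by exact_mod_cast h00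
  have c01 : (((γ : SL(2, ℤ)) 0 1 : ℚ)) + jv * ((γ : SL(2, ℤ)) 1 1 : ℚ) =
      ((f : SL(2, ℤ)) 0 0 : ℚ) * jv + ((f : SL(2, ℤ)) 0 1 : ℚ) * ℓ := by exact_mod_cast h01
  have c10 : (ℓ : ℚ) * ((γ : SL(2, ℤ)) 1 0 : ℚ) = ((f : SL(2, ℤ)) 1 0 : ℚ) := by
    exact_mod_cast h10
  have c11 : (ℓ : ℚ) * ((γ : SL(2, ℤ)) 1 1 : ℚ) =
      ((f : SL(2, ℤ)) 1 0 : ℚ) * jv + ((f : SL(2, ℤ)) 1 1 : ℚ) * ℓ := by exact_mod_cast h11
  refine sl_ext ?_ ?_ ?_ ?_ <;> simp only [dil_00, dil_01, dil_10, dil_11, castQ_apply,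
    sl_mul_apply,
    u0, u1, u2, u3, uMat_00, uMat_01, uMat_10, uMat_11, coe_natUnit, coe_natUnit_inv, inv_inv,
    one_mul, mul_one, zero_mul, mul_zero, add_zero, zero_add, neg_zero]
  · linear_combination -c00
  · field_simp
    linear_combination -c01 + (jv : ℚ) * c00
  · linear_combination -c10
  · have : (ℓ : ℚ) * ((f : SL(2, ℤ)) 1 1 : ℚ) =
        (ℓ : ℚ) * (-(((γ : SL(2, ℤ)) 1 0 : ℚ) * jv) + ((γ : SL(2, ℤ)) 1 1 : ℚ)) := by
      linear_combination -c11 + (jv : ℚ) * c10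
    exact (mul_left_cancel₀ hℓQ this).trans (by ring)

/-- An integral matrix in a principal group is congruent to the identity. -/
lemma dvd_of_mem_qPrincipal (hq : q.Prime) (hℓq : ℓ ≠ q) {γ : SL(2, ℤ)}
    (h : castQ γ ∈ qPrincipal q (N * ℓ)) :
    (ℓ : ℤ) ∣ γ 0 0 - 1 ∧ (ℓ : ℤ) ∣ γ 0 1 ∧ (ℓ : ℤ) ∣ γ 1 0 ∧ (ℓ : ℤ) ∣ γ 1 1 - 1 := by
  have key : ∀ {z : ℤ}, (z : ℚ) ∈ qMul q (N * ℓ) → (ℓ : ℤ) ∣ z := by
    intro z hz
    obtain ⟨y, hy, hyz⟩ := mem_qMul.mp hz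
    obtain ⟨m, w, hw⟩ := mem_qInt.mp hy
    have hℓ : ℓ.Prime := Fact.out
    have hco : IsCoprime (ℓ : ℤ) ((q : ℤ) ^ m) :=
      (Nat.isCoprime_iff_coprime.mpr ((Nat.coprime_primes hℓ hq).mpr hℓq)).pow_right
    refine hco.dvd_of_dvd_mul_right ⟨(N : ℤ) * w, ?_⟩
    have : ((z * (q : ℤ) ^ m : ℤ) : ℚ) = (((ℓ : ℤ) * ((N : ℤ) * w) : ℤ) : ℚ) := by
      push_cast
      rw [← hyz, ← hw]; push_cast; ring
    exact_mod_cast this
  obtain ⟨a, b, c, d⟩ := h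
  rw [castQ_apply] at a b c d
  exact ⟨key (by simpa using a), key b, key c, key (by simpa using d)⟩

variable {u : Additive (Gamma0 N) →+ k} {Φ : SL(2, ℚ) → k} (hΦ : IsExtension q u Φ)
include hΦ

/-- One step of the operator on a principal group. -/
theorem op_eq_of_mem (hdil : ∀ g ∈ qPrincipal q (N * ℓ),
      Φ (dil (natUnit ℓ) g) = Φ (dil (natUnit ℓ)⁻¹ g))
    (γ : Gamma0 N) (hγ : castQ (γ : SL(2, ℤ)) ∈ qPrincipal q (N * ℓ))
    (hp : ∀ x, (Period.transferDataT hℓN).perm γ x = x) :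
    (Period.transferDataT hℓN).op k u (Additive.ofMul γ) =
      ((ℓ : k) + 1) * Φ (dil (natUnit ℓ) (castQ (γ : SL(2, ℤ)))) := by
  have : NeZero ℓ := ⟨(Fact.out : ℓ.Prime).ne_zero⟩
  rw [Period.TransferData.op_apply]
  refine (Fintype.sum_option _).trans ?_
  have hmem : ∀ j : ℕ, ∀ a b, uMat (j : ℚ) a b ∈ qInt q := fun j a b => by
    fin_cases a <;> fin_cases b <;> simp
  have hj : ∀ j : ZMod ℓ, u (Additive.ofMul
      ((Period.transferDataT hℓN).factor γ (j : OnePoint (ZMod ℓ)))) =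
        Φ (dil (natUnit ℓ) (castQ (γ : SL(2, ℤ)))) := fun j => by
    rw [← hΦ.2, castQ_factor_coe hℓN γ j (hp _),
      ← hdil _ (conj_mem_qPrincipal hγ (hmem _)), _root_.map_mul, _root_.map_mul, _root_.map_inv,
      dil_uMat]
    refine hΦ.map_conj ⟨fun a b => ?_, by simp⟩
      (qPrincipal_le_qGamma0 dvd_rfl (dil_natUnit_mem hγ).1)
    fin_cases a <;> fin_cases b <;>
      simp [mul_mem, -ZMod.natCast_val]
  have hi : u (Additive.ofMul ((Period.transferDataT hℓN).factor γ ∞)) =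
      Φ (dil (natUnit ℓ) (castQ (γ : SL(2, ℤ)))) := by
    rw [← hΦ.2, castQ_factor_infty hℓN γ (hp _)]
  change u (Additive.ofMul ((Period.transferDataT hℓN).factor γ ∞)) +
    ∑ j : ZMod ℓ,
      u (Additive.ofMul ((Period.transferDataT hℓN).factor γ (j : OnePoint (ZMod ℓ)))) = _
  rw [hi, Finset.sum_congr rfl fun j _ => hj j, Finset.sum_const, Finset.card_univ, ZMod.card,
    nsmul_eq_mul]
  ring

/-- The square of the operator acts as `(ℓ + 1) ^ 2` on a principal group. -/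
theorem op_op_eq_of_mem (hq : q.Prime) (hℓq : ℓ ≠ q) (hdil : ∀ g ∈ qPrincipal q (N * ℓ),
      Φ (dil (natUnit ℓ) g) = Φ (dil (natUnit ℓ)⁻¹ g))
    (γ : Gamma0 N) (h00 : ((N * ℓ * ℓ : ℕ) : ℤ) ∣ (γ : SL(2, ℤ)) 0 0 - 1)
    (h01 : ((N * ℓ * ℓ : ℕ) : ℤ) ∣ (γ : SL(2, ℤ)) 0 1)
    (h10 : ((N * ℓ * ℓ : ℕ) : ℤ) ∣ (γ : SL(2, ℤ)) 1 0)
    (h11 : ((N * ℓ * ℓ : ℕ) : ℤ) ∣ (γ : SL(2, ℤ)) 1 1 - 1) :
    (Period.transferDataT hℓN).op k ((Period.transferDataT hℓN).op k u) (Additive.ofMul γ) =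
      ((ℓ : k) + 1) ^ 2 * u (Additive.ofMul γ) := by
  have : NeZero ℓ := ⟨(Fact.out : ℓ.Prime).ne_zero⟩
  set D := Period.transferDataT hℓN
  have hγ : castQ (γ : SL(2, ℤ)) ∈ qPrincipal q (N * ℓ * ℓ) := castQ_mem_qPrincipal h00 h01 h10 h11
  have hℓd : (ℓ : ℤ) ∣ ((N * ℓ * ℓ : ℕ) : ℤ) := Int.natCast_dvd_natCast.mpr (dvd_mul_left _ _)
  have hp : ∀ x, D.perm γ x = x := perm_eq_self_of_congr hℓN γ (hℓd.trans h00) (hℓd.trans h01)
    (hℓd.trans h10) (hℓd.trans h11)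
  have hmem : ∀ j : ℕ, ∀ a b, uMat (j : ℚ) a b ∈ qInt q := fun j a b => by
    fin_cases a <;> fin_cases b <;> simp
  -- each factor lies in the principal group of level `N ℓ`
  have hfac : ∀ x, castQ (D.factor γ x : SL(2, ℤ)) ∈ qPrincipal q (N * ℓ) := fun x => by
    induction x using OnePoint.rec with
    | infty => rw [castQ_factor_infty hℓN γ (hp _)]; exact (dil_natUnit_mem hγ).1
    | coe j =>
      rw [castQ_factor_coe hℓN γ j (hp _)]
      exact (dil_natUnit_mem (conj_mem_qPrincipal hγ (hmem _))).2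
  have hstep : ∀ x, (D.op k u) (Additive.ofMul (D.factor γ x)) =
      ((ℓ : k) + 1) * u (Additive.ofMul γ) := fun x => by
    obtain ⟨d00, d01, d10, d11⟩ := dvd_of_mem_qPrincipal hq hℓq (hfac x)
    rw [op_eq_of_mem hℓN hΦ hdil _ (hfac x) (perm_eq_self_of_congr hℓN _ d00 d01 d10 d11)]
    congr 1
    rw [← hΦ.2]
    induction x using OnePoint.rec with
    | infty =>
      rw [castQ_factor_infty hℓN γ (hp _), hdil _ (dil_natUnit_mem hγ).1, dil_dil, inv_mul_cancel,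
        dil_one]
    | coe j =>
      rw [castQ_factor_coe hℓN γ j (hp _), dil_dil, mul_inv_cancel, dil_one]
      exact hΦ.map_conj ⟨hmem _, by simp⟩
        (qPrincipal_le_qGamma0 (Dvd.intro _ (mul_assoc _ _ _).symm) hγ)
  rw [Period.TransferData.op_apply, Finset.sum_congr rfl fun x _ => hstep x, Finset.sum_const,
    Finset.card_univ, nsmul_eq_mul, show Fintype.card (OnePoint (ZMod ℓ)) = ℓ + 1 from
      Fintype.card_option.trans (by rw [ZMod.card])]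
  push_cast; ring

end FermatAgent.LR

end
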