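import Fermat.Agent.LR.Ihara.Descend

/-!
# The kernel of the two degeneracy maps

A pair of parabolic homomorphisms of `Γ₀(N)` in the kernel of the two degeneracy maps to
`Γ₀(N q)` vanishes if the first is an eigenvector, with eigenvalue not `±(ℓ + 1)`, of some `T_ℓ`
with `ℓ ∤ N q` and `q ^ (4 N ^ 2) ≢ 1 (mod ℓ)`.
-/

set_option autoImplicit false

noncomputable section

open scoped MatrixGroups
open Matrix CongruenceSubgroup ModularCurve.Period

namespace FermatAgent.LR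

variable {q N ℓ : ℕ} {k : Type*} [Field k] {u v : Additive (Gamma0 N) →+ k}

lemma exists_pair (γ' : Gamma0 N) (hb : (q : ℤ) ∣ (γ' : SL(2, ℤ)) 0 1) :
    ∃ γ : Gamma0 N, (q : ℤ) ∣ (γ : SL(2, ℤ)) 1 0 ∧
      !![(q : ℤ), 0; 0, 1] * ((γ : SL(2, ℤ)) : Matrix (Fin 2) (Fin 2) ℤ) =
        ((γ' : SL(2, ℤ)) : Matrix (Fin 2) (Fin 2) ℤ) * !![(q : ℤ), 0; 0, 1] := by
  obtain ⟨b, hb⟩ := hb
  set A : Matrix (Fin 2) (Fin 2) ℤ :=
    !![(γ' : SL(2, ℤ)) 0 0, b; (q : ℤ) * (γ' : SL(2, ℤ)) 1 0, (γ' : SL(2, ℤ)) 1 1] with hA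
  have hdet : A.det = 1 := by
    have hd := (γ' : SL(2, ℤ)).det_coe
    rw [Matrix.det_fin_two] at hd
    rw [hA, Matrix.det_fin_two_of]
    rw [hb] at hd
    linear_combination hd
  have hN : (N : ℤ) ∣ A 1 0 := by
    simp [hA, dvd_mul_of_dvd_right (dvd_gamma0 γ')]
  refine ⟨⟨⟨A, hdet⟩, Gamma0_mem.mpr ((ZMod.intCast_zmod_eq_zero_iff_dvd _ _).mpr hN)⟩,
    by simp [hA],
    ?_⟩
  ext i j
  fin_cases i <;> fin_cases j <;>
    simp [hA, hb, Matrix.mul_apply, Fin.sum_univ_two, mul_comm]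

/-- If the first homomorphism vanishes then so does the second. -/
theorem right_eq_zero (hq : q.Prime) (hqN : ¬ q ∣ N) (hv : IsParabolicHom (Gamma0 N) v)
    (hrel : PairRel q (0 : Additive (Gamma0 N) →+ k) v) : v = 0 := by
  have hqp : Prime (q : ℤ) := Nat.prime_iff_prime_int.mp hq
  have h0 : ∀ γ : Gamma0 N, (q : ℤ) ∣ (γ : SL(2, ℤ)) 0 1 →
      v (Additive.ofMul γ) = 0 := fun γ hb => by
    obtain ⟨δ, hδ, hδe⟩ := exists_pair γ hb
    simpa using hrel δ γ hδ hδe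
  have h1 : ∀ γ : Gamma0 N, ¬ (q : ℤ) ∣ (γ : SL(2, ℤ)) 1 1 →
      v (Additive.ofMul γ) = 0 := fun γ hd => by
    obtain ⟨x, y, hxy⟩ := (hqp.coprime_iff_not_dvd.mpr hd).symm
    rw [← map_tElt_mul hv (-((γ : SL(2, ℤ)) 0 1) * x) γ]
    refine h0 _ ⟨(γ : SL(2, ℤ)) 0 1 * y, ?_⟩
    rw [(tElt_mul_apply _ γ 1).1]
    linear_combination -((γ : SL(2, ℤ)) 0 1) * hxy
  refine AddMonoidHom.ext fun γ => ?_
  induction γ with
  | _ γ =>
  by_cases hd : (q : ℤ) ∣ (γ : SL(2, ℤ)) 1 1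
  · refine (map_lElt_mul hv 1 γ).symm.trans (h1 _ fun h => ?_)
    rw [(lElt_mul_apply 1 γ 1).2, mul_one, dvd_add_left hd] at h
    rcases hqp.dvd_or_dvd h with h' | h'
    · exact hqN (Int.natCast_dvd_natCast.mp h')
    · refine hqp.not_isUnit (isUnit_of_dvd_one ?_)
      have hdet := (γ : SL(2, ℤ)).det_coe
      rw [Matrix.det_fin_two] at hdet
      rw [← hdet]
      exact dvd_sub (hd.mul_left _) (h'.mul_right _)
  · exact h1 γ hd

/-- **Ihara's lemma for an eigenvector.** The pair extends to a homomorphism of the level `N`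
subgroup of `SL₂(ℤ[1/q])`; as `q` has large order modulo `ℓ`, this forces `T_ℓ² u = (ℓ + 1)² u` on
the principal congruence subgroup, so `u` is killed there, then everywhere, and then so is `v`. -/
theorem pair_eq_zero [Fact ℓ.Prime] (hN : 0 < N) (hq : q.Prime) (hqN : ¬ q ∣ N) (hℓN : ¬ ℓ ∣ N)
    (hℓq : ℓ ≠ q) (hord : (q : ZMod ℓ) ^ (4 * N ^ 2) ≠ 1)
    (hu : IsParabolicHom (Gamma0 N) u) (hv : IsParabolicHom (Gamma0 N) v) (hrel : PairRel q u v)
    {a : k} (hT : (Period.transferDataT hℓN).op k u = a • u) (ha : a ^ 2 ≠ ((ℓ : k) + 1) ^ 2) :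
    u = 0 ∧ v = 0 := by
  obtain ⟨Φ, hΦm, hΦu⟩ := exists_extension u v hq hqN hrel
  have hΦ : IsExtension q u Φ := ⟨hΦm, hΦu⟩
  have hdil := fun g (hg : g ∈ qPrincipal q (N * ℓ)) =>
    hΦ.dil_eq_dil_inv hq hu hN hℓN hℓq hqN hord hg
  set T : (Additive (Gamma0 N) →+ k) →ₗ[k] (Additive (Gamma0 N) →+ k) :=
    (Period.transferDataT hℓN).op k
  have happ : ∀ γ, T u γ = a * u γ := fun γ => by
    rw [hT, AddMonoidHom.smul_apply, smul_eq_mul]
  have hkill : ∀ γ : Gamma0 N, (N : ℤ) ∣ (γ : SL(2, ℤ)) 0 0 - 1 → u (Additive.ofMul γ) = 0 := by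
    refine eq_zero_of_congr_one hℓN hu fun γ h00 h01 h10 h11 => ?_
    have h := op_op_eq_of_mem hℓN hΦ hq hℓq hdil γ h00 h01 h10 h11
    rw [show T (T u) = (a * a) • u by rw [hT, map_smul, hT, smul_smul], AddMonoidHom.smul_apply,
      smul_eq_mul] at h
    exact (mul_eq_mul_right_iff.mp h).resolve_left fun e => ha (by linear_combination e)
  have hu0 : u = 0 := by
    refine AddMonoidHom.ext fun γ => ?_
    induction γ with
    | _ γ =>
    have h := op_eq_of_congr hℓN hkill γ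
    rw [happ] at h
    exact (mul_eq_mul_right_iff.mp h).resolve_left fun e => ha (by rw [e])
  subst hu0
  exact ⟨rfl, right_eq_zero hq hqN hv hrel⟩

end FermatAgent.LR

end
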