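import Fermat.Agent.LR.Ihara.QGroup

/-!
# Conjugation by powers of `q` on homomorphisms killing the unipotent matrices

For each element of the principal group of level `M` there is an exponent `n`, avoiding a given
prime power, such that conjugation by `diag(q ^ n, q ^ -n)` fixes the values of all homomorphisms
killing the unipotent matrices there: a Dirichlet prime in the first column does this.
-/

set_option autoImplicit false

noncomputable section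

open scoped MatrixGroups
open Matrix

namespace FermatAgent.LR

variable {q M : ℕ} {k : Type*} [Field k]

/-- A homomorphism on the principal group killing the unipotent matrices. -/
def IsUnipHom (q M : ℕ) (χ : SL(2, ℚ) → k) : Prop :=
  (∀ g ∈ qPrincipal q M, ∀ h ∈ qPrincipal q M, χ (g * h) = χ g + χ h) ∧
    ∀ g ∈ qPrincipal q M, IsUnip g → χ g = 0

namespace IsUnipHom

variable {χ : SL(2, ℚ) → k} (hχ : IsUnipHom q M χ)
include hχ

lemma map_one : χ 1 = 0 := by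
  have h := hχ.1 1 (one_mem _) 1 (one_mem _)
  rwa [one_mul, left_eq_add] at h

lemma map_inv {g : SL(2, ℚ)} (hg : g ∈ qPrincipal q M) : χ g⁻¹ = -χ g := by
  have h := hχ.1 g⁻¹ (inv_mem hg) g hg
  rw [inv_mul_cancel, hχ.map_one] at h
  exact eq_neg_of_add_eq_zero_left h.symm

lemma map_conj {w g : SL(2, ℚ)} (hw : w ∈ qPrincipal q M) (hg : g ∈ qPrincipal q M) :
    χ (w * g * w⁻¹) = χ g := by
  rw [hχ.1 _ (mul_mem hw hg) _ (inv_mem hw), hχ.1 _ hw _ hg, hχ.map_inv hw]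
  abel

lemma comp_conj {w : SL(2, ℚ)} (hw : ∀ i j, w i j ∈ qInt q) :
    IsUnipHom q M fun g => χ (w * g * w⁻¹) :=
  ⟨fun g hg h hh => by
    show χ (w * (g * h) * w⁻¹) = _
    rw [show w * (g * h) * w⁻¹ = (w * g * w⁻¹) * (w * h * w⁻¹) by group,
      hχ.1 _ (conj_mem_qPrincipal hg hw) _ (conj_mem_qPrincipal hh hw)],
  fun g hg hu => hχ.2 _ (conj_mem_qPrincipal hg hw) (hu.conj w)⟩

end IsUnipHom

/-- A prime power dividing a least common multiple divides one of the two numbers. -/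
lemma pow_dvd_lcm_imp {r b x y : ℕ} (hr : r.Prime) (h : r ^ b ∣ Nat.lcm x y) :
    r ^ b ∣ x ∨ r ^ b ∣ y := by
  rcases eq_or_ne x 0 with rfl | hx
  · exact Or.inl (dvd_zero _)
  rcases eq_or_ne y 0 with rfl | hy
  · exact Or.inr (dvd_zero _)
  rw [hr.pow_dvd_iff_le_factorization (Nat.lcm_ne_zero hx hy), Nat.factorization_lcm hx hy,
    Finsupp.sup_apply] at h
  rw [hr.pow_dvd_iff_le_factorization hx, hr.pow_dvd_iff_le_factorization hy]
  exact le_sup_iff.mp h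

/-- The unit `q ^ j`. -/
def qUnit (q : ℕ) (hq : q.Prime) (j : ℕ) : ℚˣ :=
  Units.mk0 ((q : ℚ) ^ j) (pow_ne_zero _ (Nat.cast_ne_zero.mpr hq.ne_zero))

lemma coe_qUnit (hq : q.Prime) (j : ℕ) : ((qUnit q hq j : ℚˣ) : ℚ) = (q : ℚ) ^ j := rfl

lemma coe_qUnit_inv (hq : q.Prime) (j : ℕ) :
    (((qUnit q hq j)⁻¹ : ℚˣ) : ℚ) = ((q : ℚ) ^ j)⁻¹ := by
  rw [Units.val_inv_eq_inv_val, coe_qUnit]

lemma dil_qUnit_mem (hq : q.Prime) (j : ℕ) {g : SL(2, ℚ)} (hg : g ∈ qPrincipal q M) :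
    dil (qUnit q hq j) g ∈ qPrincipal q M := by
  obtain ⟨a, b, c, d⟩ := hg
  refine ⟨by simpa using a, ?_, ?_, by simpa using d⟩
  · rw [dil_01, coe_qUnit]; exact mul_mem_qMul' (pow_mem (natCast_mem_qInt q) j) b
  · rw [dil_10, coe_qUnit_inv]; exact mul_mem_qMul' (inv_pow_mem_qInt hq.ne_zero j) c

/-- An integer congruent to another modulo `L` that is a unit modulo a prime power `R` other
than two and not congruent to one modulo it. -/
lemma exists_residue {L r b : ℕ} (hr : r.Prime) (hrb : 2 < r ^ b) (hLr : ¬ r ^ b ∣ L) (a : ℤ)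
    (hLa : IsCoprime a (L : ℤ)) :
    ∃ x : ℤ, (L : ℤ) ∣ x - a ∧ IsCoprime x ((r ^ b : ℕ) : ℤ) ∧ ¬ ((r ^ b : ℕ) : ℤ) ∣ x - 1 := by
  push_cast
  by_cases hrL : r ∣ L
  · have hau : ∀ t : ℤ, IsCoprime (a + (L : ℤ) * t) ((r : ℤ) ^ b) := fun t => by
      refine IsCoprime.pow_right ?_
      obtain ⟨c, hc⟩ := hrL
      have h1 : IsCoprime (a + (L : ℤ) * t) (L : ℤ) := hLa.add_mul_left_left t
      refine h1.of_isCoprime_of_dvd_right ⟨(c : ℤ), ?_⟩
      rw [hc]; push_cast; ring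
    by_cases h1 : ((r : ℤ) ^ b) ∣ a - 1
    · refine ⟨a + (L : ℤ) * 1, by simp, hau 1, fun h2 => hLr ?_⟩
      have h3 : ((r : ℤ) ^ b) ∣ (L : ℤ) := by
        have := dvd_sub h2 h1
        rwa [show a + (L : ℤ) * 1 - 1 - (a - 1) = (L : ℤ) by ring] at this
      exact_mod_cast h3
    · exact ⟨a, by simp, by simpa using hau 0, h1⟩
  · have hc : IsCoprime (L : ℤ) ((r : ℤ) ^ b) :=
      (Nat.isCoprime_iff_coprime.mpr (hr.coprime_iff_not_dvd.mpr hrL).symm).pow_right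
    obtain ⟨s, t, hst⟩ := hc
    -- `x ≡ -1` modulo the prime power
    refine ⟨a + (L : ℤ) * (s * (-1 - a)), by simp, ?_, fun h => ?_⟩
    · refine ⟨-1, -(t * (-1 - a)), ?_⟩
      linear_combination (1 + a) * hst
    · have h2 : ((r : ℤ) ^ b) ∣ 2 := by
        have h3 : ((r : ℤ) ^ b) ∣ a + (L : ℤ) * (s * (-1 - a)) - (-1) :=
          ⟨-(t * (-1 - a)), by linear_combination (-1 - a) * hst⟩
        have := dvd_sub h3 h
        rwa [show ∀ x : ℤ, x - (-1) - (x - 1) = 2 from fun x => by ring] at this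
      have h3 : r ^ b ∣ 2 := by exact_mod_cast h2
      exact absurd (Nat.le_of_dvd two_pos h3) (by omega)

/-- An integer prime to `L` can be moved by a multiple of `L` to a prime `P` above a bound with
`P - 1` not divisible by the prime power. -/
private theorem exists_prime_dvd_sub_avoiding {L r b : ℕ} (hr : r.Prime) (hrb : 2 < r ^ b)
    (hLr : ¬ r ^ b ∣ L) {a : ℤ} (hLa : IsCoprime a (L : ℤ)) (B : ℕ) :
    ∃ P : ℕ, B < P ∧ P.Prime ∧ (L : ℤ) ∣ (P : ℤ) - a ∧ ¬ r ^ b ∣ P - 1 := by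
  obtain ⟨x, ⟨c, hc⟩, hxu, hx1⟩ := exists_residue hr hrb hLr a hLa
  have hxL : IsCoprime x (L : ℤ) := by
    rw [show x = a + (L : ℤ) * c by linear_combination hc]
    exact hLa.add_mul_left_left c
  have hL : L ≠ 0 := fun h => hLr (h ▸ dvd_zero _)
  obtain ⟨P, hPgt, hP, hPx⟩ := Nat.forall_exists_prime_gt_and_zmodEq B
    (mul_ne_zero hL (pow_ne_zero b hr.ne_zero))
    (show IsCoprime x ((L * r ^ b : ℕ) : ℤ) by simpa using hxL.mul_right hxu)
  obtain ⟨t, ht⟩ := hPx.symm.dvd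
  push_cast at ht
  refine ⟨P, hPgt, hP, ⟨c + t * (r : ℤ) ^ b, by linear_combination ht + hc⟩, fun hd => hx1 ?_⟩
  have h1 : ((r ^ b : ℕ) : ℤ) ∣ (P : ℤ) - 1 := by
    have := Int.natCast_dvd_natCast.mpr hd
    rwa [Nat.cast_sub hP.one_le, Nat.cast_one] at this
  rw [show x - 1 = ((P : ℤ) - 1) - ((P : ℤ) - x) by ring, ht]
  exact dvd_sub h1 ⟨(L : ℤ) * t, by push_cast; ring⟩

/-- An element of `ℤ[1/q]` times any large power of `q` is an integer. -/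
private theorem exists_int_eq_mul_pow {x : ℚ} (hx : x ∈ qInt q) :
    ∃ m, ∀ j, m ≤ j → ∃ z : ℤ, x * (q : ℚ) ^ j = z := by
  obtain ⟨m, z, hz⟩ := mem_qInt.mp hx
  exact ⟨m, fun j hj => ⟨z * (q : ℤ) ^ (j - m), by
    push_cast; rw [← hz, mul_assoc, ← pow_add, Nat.add_sub_cancel' hj]⟩⟩

/-- The diagonal matrix of `q ^ j` is in the principal group when `q ^ j` is one modulo `M`. -/
private theorem dMat_qUnit_mem (hq : q.Prime) {j : ℕ} {e : ℤ}
    (he : (q : ℚ) ^ j - 1 = (M : ℚ) * (e : ℚ)) : dMat (qUnit q hq j) ∈ qPrincipal q M := by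
  refine ⟨?_, by simp, by simp, ?_⟩
  · rw [dMat_00, coe_qUnit, he]; exact self_mul_mem_qMul (intCast_mem_qInt e)
  · rw [dMat_11, coe_qUnit_inv]
    have hqQ : (q : ℚ) ≠ 0 := Nat.cast_ne_zero.mpr hq.ne_zero
    have h1 : ((q : ℚ) ^ j)⁻¹ - 1 = (M : ℚ) * (-(e : ℚ) * ((q : ℚ) ^ j)⁻¹) := by
      field_simp; linear_combination -he
    rw [h1]
    exact self_mul_mem_qMul (mul_mem (neg_mem (intCast_mem_qInt e))
      (inv_pow_mem_qInt hq.ne_zero j))

/-- In a scaled column the lower entry is prime to the part of the upper one prime to `q`. -/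
private theorem isCoprime_of_scaled_column (hq : q.Prime) {g : SL(2, ℚ)}
    (hent : ∀ i j, g i j ∈ qInt q) {j : ℕ} {a c a' : ℤ} {s : ℕ}
    (ha : g 0 0 * (q : ℚ) ^ j = (a : ℚ)) (hc : g 1 0 * (q : ℚ) ^ j = (M : ℚ) * (c : ℚ))
    (ha' : a = (q : ℤ) ^ s * a') (haq : ¬ (q : ℤ) ∣ a') : IsCoprime c a' := by
  obtain ⟨m₄, z₄, hz₄⟩ := mem_qInt.mp (hent 0 1)
  obtain ⟨m₅, z₅, hz₅⟩ := mem_qInt.mp (hent 1 1)
  have hqa : IsCoprime (q : ℤ) a' :=
    (Prime.coprime_iff_not_dvd (Nat.prime_iff_prime_int.mp hq)).mpr haq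
  have hdet : a * (z₅ * (q : ℤ) ^ m₄) - c * ((M : ℤ) * (z₄ * (q : ℤ) ^ m₅)) =
      (q : ℤ) ^ (j + m₄ + m₅) := by
    have : ((a * (z₅ * (q : ℤ) ^ m₄) - c * ((M : ℤ) * (z₄ * (q : ℤ) ^ m₅)) : ℤ) : ℚ) =
        (((q : ℤ) ^ (j + m₄ + m₅) : ℤ) : ℚ) := by
      push_cast
      rw [← hz₄, ← hz₅, ← ha]
      simp only [pow_add]
      linear_combination ((q : ℚ) ^ j * (q : ℚ) ^ m₄ * (q : ℚ) ^ m₅) * sl_det_eq g +
        (g 0 1 * (q : ℚ) ^ m₄ * (q : ℚ) ^ m₅) * hc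
    exact_mod_cast this
  obtain ⟨u, v, huv⟩ := hqa.pow_left (m := j + m₄ + m₅)
  refine ⟨-(u * (M : ℤ) * (z₄ * (q : ℤ) ^ m₅)), u * (q : ℤ) ^ s * (z₅ * (q : ℤ) ^ m₄) + v, ?_⟩
  rw [ha'] at hdet
  linear_combination u * hdet + huv

/-- Scaled by a suitable power of `q`, the first column of an element of the principal group is
integral and congruent to `(1, 0)` modulo `M`. -/
private theorem exists_scaled_column (hq : q.Prime) (hM : 2 ≤ M) (hqM : ¬ q ∣ M) {g : SL(2, ℚ)}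
    (hg : g ∈ qPrincipal q M) :
    ∃ (j : ℕ) (a c : ℤ), dMat (qUnit q hq j) ∈ qPrincipal q M ∧
      g 0 0 * (q : ℚ) ^ j = (a : ℚ) ∧ g 1 0 * (q : ℚ) ^ j = (M : ℚ) * (c : ℚ) ∧
      (M : ℤ) ∣ a - 1 := by
  obtain ⟨ga, gb, gc, gd⟩ := id hg
  obtain ⟨c₀, hc₀, hc0⟩ := mem_qMul.mp gc
  obtain ⟨a₀, ha₀, ha0⟩ := mem_qMul.mp ga
  obtain ⟨m₂, h₂⟩ := exists_int_eq_mul_pow hc₀
  obtain ⟨m₃, h₃⟩ := exists_int_eq_mul_pow ha₀
  -- a multiple of the order of `q` modulo `M`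
  set φ := M.totient
  set j := (m₂ + m₃) * φ
  have hj : m₂ + m₃ ≤ j := Nat.le_mul_of_pos_right _ (Nat.totient_pos.mpr (by omega))
  obtain ⟨e, he⟩ : (M : ℤ) ∣ (q : ℤ) ^ j - 1 := by
    have h1 : (q ^ φ) ≡ 1 [MOD M] := Nat.ModEq.pow_totient (hq.coprime_iff_not_dvd.mpr hqM)
    have h2 : q ^ j ≡ 1 [MOD M] := by
      simpa [j, mul_comm _ φ, pow_mul] using h1.pow (m₂ + m₃)
    simpa using Nat.modEq_iff_dvd.mp h2.symm
  have heQ : (q : ℚ) ^ j - 1 = (M : ℚ) * (e : ℚ) := by exact_mod_cast he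
  obtain ⟨c, hc⟩ := h₂ j (by omega)
  obtain ⟨z, hz⟩ := h₃ j (by omega)
  refine ⟨j, 1 + (M : ℤ) * (z + e), c, dMat_qUnit_mem hq heQ, ?_, ?_, ⟨z + e, by ring⟩⟩
  · push_cast
    linear_combination -((q : ℚ) ^ j) * ha0 + (M : ℚ) * hz + heQ
  · linear_combination -((q : ℚ) ^ j) * hc0 + (M : ℚ) * hc

/-- A column in the principal group can be brought to a prime entry avoiding a congruence. -/
theorem exists_column (hq : q.Prime) (hM : 2 ≤ M) (hqM : ¬ q ∣ M) {r b : ℕ} (hr : r.Prime)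
    (hrb : 2 < r ^ b) (hrM : ¬ r ^ b ∣ M * M) {g : SL(2, ℚ)} (hg : g ∈ qPrincipal q M) :
    ∃ (j : ℕ) (x y : ℚ) (P : ℕ), x ∈ qMul q M ∧ y ∈ qMul q M ∧ P.Prime ∧ q < P ∧
      ¬ r ^ b ∣ P - 1 ∧ dMat (qUnit q hq j) ∈ qPrincipal q M ∧
      (uMat x * (lMat y * (g * dMat (qUnit q hq j)))) 0 0 = (P : ℚ) ∧
      (uMat x * (lMat y * (g * dMat (qUnit q hq j)))) 1 0 ∈ qMul q M := by
  have hqQ : (q : ℚ) ≠ 0 := Nat.cast_ne_zero.mpr hq.ne_zero
  obtain ⟨j, a₁, c₁, hD, ha₁, hc₁, ha₁M⟩ := exists_scaled_column hq hM hqM hg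
  have ha₁0 : a₁ ≠ 0 := fun h0 => by
    rw [h0, zero_sub, dvd_neg] at ha₁M
    have := Int.le_of_dvd one_pos ha₁M
    omega
  have haM : IsCoprime a₁ (M : ℤ) := by
    obtain ⟨c, hc⟩ := ha₁M
    exact ⟨1, -c, by linear_combination hc⟩
  -- the part of `a₁` prime to `q`
  have hfin : FiniteMultiplicity (q : ℤ) a₁ :=
    Int.finiteMultiplicity_iff.mpr ⟨by simpa using hq.ne_one, ha₁0⟩
  obtain ⟨a', ha', haq⟩ := hfin.exists_eq_pow_mul_and_not_dvd
  set s := multiplicity (q : ℤ) a₁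
  have hca : IsCoprime c₁ a' :=
    isCoprime_of_scaled_column hq (qPrincipal_entry hg) ha₁ hc₁ ha' haq
  -- the prime in the lower entry
  obtain ⟨z, hzgt, hz, hzc⟩ := Nat.forall_exists_prime_gt_and_zmodEq (r + M + a₁.natAbs)
    (Int.natAbs_ne_zero.mpr (show a' ≠ 0 from fun h0 => haq (h0 ▸ dvd_zero _)))
    (hca.of_isCoprime_of_dvd_right (Int.natAbs_dvd.mpr dvd_rfl))
  obtain ⟨y₀, hy₀⟩ : a' ∣ (z : ℤ) - c₁ := Int.natAbs_dvd.mp hzc.symm.dvd
  set y : ℚ := (M : ℚ) * ((y₀ : ℚ) * ((q : ℚ) ^ s)⁻¹)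
  have hy : y ∈ qMul q M :=
    self_mul_mem_qMul (mul_mem (intCast_mem_qInt y₀) (inv_pow_mem_qInt hq.ne_zero s))
  have hz0 : y * (a₁ : ℚ) + (M : ℚ) * c₁ = (M : ℚ) * z := by
    have h1 : ((z : ℤ) : ℚ) - c₁ = (a' : ℚ) * y₀ := by exact_mod_cast hy₀
    have h2 : (a₁ : ℚ) = (q : ℚ) ^ s * a' := by exact_mod_cast ha'
    have h3 : y * (a₁ : ℚ) = (M : ℚ) * (a' * y₀) := by
      simp only [y, h2]; field_simp
    rw [h3, ← h1]; push_cast; ring
  -- the prime in the upper entry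
  set L := M * (M * z)
  have hLr : ¬ r ^ b ∣ L := fun hd => hrM (by
    have hco : (r ^ b).Coprime z :=
      ((Nat.coprime_primes hr hz).mpr (by omega)).pow_left _
    rw [show L = M * M * z by ring] at hd
    exact hco.dvd_of_dvd_mul_right hd)
  have haL : IsCoprime a₁ (L : ℤ) := by
    have hza : ¬ (z : ℤ) ∣ a₁ := fun hd => by
      have := Nat.le_of_dvd (Int.natAbs_pos.mpr ha₁0) (Int.natCast_dvd.mp hd)
      omega
    simp only [L]; push_cast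
    exact haM.mul_right (haM.mul_right
      ((Prime.coprime_iff_not_dvd (Nat.prime_iff_prime_int.mp hz)).mpr hza).symm)
  obtain ⟨P, hPgt, hP, ⟨d, hd⟩, hPr⟩ := exists_prime_dvd_sub_avoiding hr hrb hLr haL q
  have hPa : (P : ℚ) - a₁ = (M : ℚ) * ((M : ℚ) * z) * (d : ℚ) := by
    simp only [L] at hd; exact_mod_cast hd
  refine ⟨j, (M : ℚ) * (d : ℚ), y, P, self_mul_mem_qMul (intCast_mem_qInt _), hy, hP, hPgt, hPr,
    hD, ?_, ?_⟩
  · simp only [sl_mul_apply, uMat_00, uMat_01, lMat_00, lMat_01, lMat_10, lMat_11, dMat_00, dMat_10,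
      coe_qUnit, one_mul, zero_mul, mul_zero, add_zero]
    rw [ha₁, hc₁, hz0]
    linear_combination -hPa
  · simp only [sl_mul_apply, uMat_10, uMat_11, lMat_10, lMat_11, dMat_00, dMat_10,
      coe_qUnit, one_mul, zero_mul, mul_zero, add_zero, zero_add]
    rw [ha₁, hc₁, hz0]
    exact self_mul_mem_qMul (natCast_mem_qInt z)

/-- **Invariance under conjugation by powers of `q`.** -/
theorem exists_dil_period (hq : q.Prime) (hM : 2 ≤ M) (hqM : ¬ q ∣ M) {r b : ℕ} (hr : r.Prime)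
    (hrb : 2 < r ^ b) (hrM : ¬ r ^ b ∣ M * M) {g : SL(2, ℚ)} (hg : g ∈ qPrincipal q M) :
    ∃ n : ℕ, 0 < n ∧ ¬ r ^ b ∣ n ∧ ∀ (m : ℕ), n ∣ m → ∀ χ : SL(2, ℚ) → k, IsUnipHom q M χ →
      χ (dil (qUnit q hq (2 * m)) g) = χ g := by
  obtain ⟨j, x, y, P, hx, hy, hP, hqP, hPr, hD, h00, h10⟩ :=
    exists_column hq hM hqM hr hrb hrM hg
  refine ⟨P - 1, by have := hP.two_le; omega, hPr, fun m hm χ hχ => ?_⟩
  set U := uMat x
  set L := lMat y
  set D := dMat (qUnit q hq j)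
  set g₃ := U * (L * (g * D))
  have hU : U ∈ qPrincipal q M := uMat_mem_qPrincipal hx
  have hL : L ∈ qPrincipal q M := lMat_mem_qPrincipal hy
  have hg₃ : g₃ ∈ qPrincipal q M := mul_mem hU (mul_mem hL (mul_mem hg hD))
  set Q := qUnit q hq (2 * m)
  have hQ := fun {g} (hg : g ∈ qPrincipal q M) => dil_qUnit_mem hq (2 * m) hg
  -- `P` divides `Q - 1`
  obtain ⟨e, he⟩ : (P : ℤ) ∣ (q : ℤ) ^ (2 * m) - 1 := by
    have : Fact P.Prime := ⟨hP⟩
    have hq0 : ((q : ℤ) : ZMod P) ≠ 0 := by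
      rw [Int.cast_natCast, Ne, ZMod.natCast_eq_zero_iff]
      exact fun h => absurd (Nat.le_of_dvd hq.pos h) (by omega)
    obtain ⟨c, hc⟩ := hm.mul_left 2
    rw [← ZMod.intCast_zmod_eq_zero_iff_dvd, Int.cast_sub, Int.cast_pow, Int.cast_one, hc,
      pow_mul, ZMod.pow_card_sub_one_eq_one hq0, one_pow, sub_self]
  have heQ : (q : ℚ) ^ (2 * m) - 1 = (P : ℚ) * (e : ℚ) := by exact_mod_cast he
  obtain ⟨c, hc, hce⟩ := mem_qMul.mp h10
  set t : ℚ := (M : ℚ) * (-(e : ℚ) * ((q : ℚ) ^ (2 * m))⁻¹ * c)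
  have ht : t ∈ qMul q M := self_mul_mem_qMul (mul_mem (mul_mem (neg_mem (intCast_mem_qInt e))
    (inv_pow_mem_qInt hq.ne_zero _)) hc)
  have hqQ : (q : ℚ) ≠ 0 := Nat.cast_ne_zero.mpr hq.ne_zero
  set w := (lMat t * g₃)⁻¹ * dil Q g₃
  have hw : w ∈ qPrincipal q M :=
    mul_mem (inv_mem (mul_mem (lMat_mem_qPrincipal ht) hg₃)) (hQ hg₃)
  have hwu : IsUnip w := by
    obtain ⟨e0, e1, e2, e3⟩ := sl_inv_apply (lMat t * g₃)
    have hd := sl_det_eq g₃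
    have h00' : g₃ 0 0 = (P : ℚ) := h00
    have hc' : g₃ 1 0 = (M : ℚ) * c := hce.symm
    have hcol : g₃ 1 0 * ((q : ℚ) ^ (2 * m))⁻¹ = t * g₃ 0 0 + g₃ 1 0 := by
      rw [h00', hc']
      simp only [t]; field_simp; linear_combination -c * heQ
    have hwd := sl_det_eq w
    have hw00 : w 0 0 = 1 := by
      simp only [w, sl_mul_apply, e0, e1, dil_00, dil_10, lMat_00, lMat_01, lMat_10, lMat_11, Q,
        coe_qUnit_inv, one_mul, zero_mul, add_zero]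
      linear_combination hd - g₃ 0 1 * hcol
    have hw10 : w 1 0 = 0 := by
      simp only [w, sl_mul_apply, e2, e3, dil_00, dil_10, lMat_00, lMat_01, lMat_10, lMat_11, Q,
        coe_qUnit_inv, one_mul, zero_mul, add_zero]
      linear_combination g₃ 0 0 * hcol
    rw [hw00, hw10, mul_zero, sub_zero, one_mul] at hwd
    show w 0 0 + w 1 1 = 2
    rw [hw00, hwd]; norm_num
  have h3 : χ (dil Q g₃) = χ g₃ := by
    have e1 : dil Q g₃ = lMat t * g₃ * w := by simp only [w]; group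
    rw [e1, hχ.1 _ (mul_mem (lMat_mem_qPrincipal ht) hg₃) _ hw, hχ.2 w hw hwu,
      hχ.1 _ (lMat_mem_qPrincipal ht) _ hg₃, hχ.2 _ (lMat_mem_qPrincipal ht) (isUnip_lMat t)]
    simp
  have hdD : dil Q D = D := sl_ext rfl (by simp [D]) (by simp [D]) rfl
  simp only [g₃, _root_.map_mul, hdD] at h3
  rw [hχ.1 _ (hQ hU) _ (mul_mem (hQ hL) (mul_mem (hQ hg) hD)),
    hχ.1 _ (hQ hL) _ (mul_mem (hQ hg) hD), hχ.1 _ (hQ hg) _ hD,
    hχ.1 _ hU _ (mul_mem hL (mul_mem hg hD)), hχ.1 _ hL _ (mul_mem hg hD), hχ.1 _ hg _ hD,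
    hχ.2 _ (hQ hU) ((isUnip_uMat x).dil _), hχ.2 _ hU (isUnip_uMat x),
    hχ.2 _ (hQ hL) ((isUnip_lMat y).dil _), hχ.2 _ hL (isUnip_lMat y)] at h3
  simpa using h3

/-- **Invariance under integral unipotents.** If conjugation by powers of `q` avoids `ℓ`, the
values at level `M` are invariant under `U(M / ℓ)`. -/
theorem unipHom_uMat_invariant (hq : q.Prime) {N ℓ r b : ℕ} [Fact ℓ.Prime] (hM : 2 ≤ N * ℓ)
    (hqM : ¬ q ∣ N * ℓ) (hr : r.Prime) (hrb : 2 < r ^ b) (hrM : ¬ r ^ b ∣ N * ℓ * (N * ℓ))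
    (hord : r ^ b ∣ orderOf ((q : ZMod ℓ) ^ 2)) {χ : SL(2, ℚ) → k} (hχ : IsUnipHom q (N * ℓ) χ)
    (i : ℤ) {g : SL(2, ℚ)} (hg : g ∈ qPrincipal q (N * ℓ)) :
    χ (uMat ((N : ℚ) * i) * g * (uMat ((N : ℚ) * i))⁻¹) = χ g := by
  classical
  set M := N * ℓ
  have : NeZero M := ⟨by omega⟩
  have hmemU : ∀ y : ℤ, ∀ i j, uMat (y : ℚ) i j ∈ qInt q := fun y a c => by
    fin_cases a <;> fin_cases c <;> simp
  have hconj : ∀ y : ℤ, uMat (y : ℚ) * g * (uMat (y : ℚ))⁻¹ ∈ qPrincipal q M :=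
    fun y => conj_mem_qPrincipal hg (hmemU y)
  have hUadd : ∀ x y : ℚ, uMat (x + y) = uMat x * uMat y := fun x y =>
    sl_ext (by simp [sl_mul_apply]) (by simp [sl_mul_apply, add_comm]) (by simp [sl_mul_apply])
      (by simp [sl_mul_apply])
  -- exponents for the finitely many translates
  choose nf hn0 hnr hnf using fun a : ZMod M =>
    exists_dil_period (k := k) hq hM hqM hr hrb hrM (hconj (a.val : ℤ))
  set n := Finset.univ.lcm nf
  have hnr' : ¬ r ^ b ∣ n := by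
    suffices H : ∀ s : Finset (ZMod M), ¬ r ^ b ∣ s.lcm nf from H _
    intro s
    induction s using Finset.induction with
    | empty => rw [Finset.lcm_empty, Nat.dvd_one]; omega
    | insert a s _ ih =>
      rw [Finset.lcm_insert]
      intro h
      exact (pow_dvd_lcm_imp hr h).elim (hnr a) ih
  have hℓQ : ¬ (ℓ : ℤ) ∣ (q : ℤ) ^ (2 * n) - 1 := fun h =>
    hnr' (hord.trans (orderOf_dvd_of_pow_eq_one (by
    rw [← ZMod.intCast_zmod_eq_zero_iff_dvd] at h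
    push_cast at h
    rw [← pow_mul]
    exact sub_eq_zero.mp h)))
  -- the values at the translates
  set F : (SL(2, ℚ) → k) → ℤ → k := fun ψ y => ψ (uMat (y : ℚ) * g * (uMat (y : ℚ))⁻¹)
  have hperM : ∀ ψ, IsUnipHom q M ψ → ∀ y t : ℤ, F ψ (y + M * t) = F ψ y := fun ψ hψ y t => by
    have hw : uMat ((M : ℚ) * t) ∈ qPrincipal q M :=
      uMat_mem_qPrincipal (self_mul_mem_qMul (intCast_mem_qInt t))
    show ψ _ = ψ _
    push_cast
    rw [add_comm (y : ℚ), hUadd]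
    rw [show uMat ((M : ℚ) * t) * uMat (y : ℚ) * g * (uMat ((M : ℚ) * t) * uMat (y : ℚ))⁻¹ =
      uMat ((M : ℚ) * t) * (uMat (y : ℚ) * g * (uMat (y : ℚ))⁻¹) * (uMat ((M : ℚ) * t))⁻¹ by group]
    exact hψ.map_conj hw (hconj y)
  set Qz : ℤ := (q : ℤ) ^ (2 * n)
  have hscale : ∀ ψ, IsUnipHom q M ψ → ∀ y : ℤ, F ψ (Qz * y) = F ψ y := by
    intro ψ hψ y
    obtain ⟨t, ht⟩ : (M : ℤ) ∣ y - (((y : ℤ) : ZMod M).val : ℤ) := by
      rw [← ZMod.intCast_zmod_eq_zero_iff_dvd]; push_cast; rw [ZMod.natCast_zmod_val, sub_self]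
    set y₀ : ℤ := (((y : ℤ) : ZMod M).val : ℤ)
    rw [show y = y₀ + M * t by linear_combination ht, mul_add, ← mul_assoc, mul_comm Qz (M : ℤ),
      mul_assoc, hperM ψ hψ, hperM ψ hψ]
    set Q := qUnit q hq (2 * n)
    have hcomp := hψ.comp_conj (w := uMat ((Qz * y₀ : ℤ) : ℚ)) (hmemU _)
    have hdvd : ∀ a, nf a ∣ n := fun a => Finset.dvd_lcm (Finset.mem_univ a)
    have h1 := hnf ((y : ℤ) : ZMod M) n (hdvd _) ψ hψ
    have h0 : ∃ a : ZMod M, (a.val : ℤ) = 0 := ⟨0, by simp⟩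
    obtain ⟨a, ha⟩ := h0
    have h2 := hnf a n (hdvd _) _ hcomp
    rw [ha] at h2
    have hu0 : uMat ((0 : ℤ) : ℚ) = 1 := sl_ext rfl (by simp) rfl rfl
    rw [hu0, one_mul, inv_one, mul_one] at h2
    show F ψ (Qz * y₀) = _
    simp only [F] at *
    rw [_root_.map_mul, _root_.map_mul, map_inv, dil_uMat, coe_qUnit] at h1
    rw [← h1]
    have : ((Qz * y₀ : ℤ) : ℚ) = (q : ℚ) ^ (2 * n) * (y₀ : ℚ) := by simp [Qz]
    rw [this] at h2 ⊢
    exact h2.symm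
  have hperQ : ∀ y : ℤ, F χ (y + (Qz - 1)) = F χ y := fun y => by
    have h := hscale _ (hχ.comp_conj (w := uMat ((y - 1 : ℤ) : ℚ)) (hmemU _)) 1
    simp only [F] at h ⊢
    have e : ∀ z : ℤ, uMat ((y - 1 : ℤ) : ℚ) * (uMat (z : ℚ) * g * (uMat (z : ℚ))⁻¹) *
        (uMat ((y - 1 : ℤ) : ℚ))⁻¹ =
          uMat (((y - 1 + z : ℤ)) : ℚ) * g * (uMat (((y - 1 + z : ℤ)) : ℚ))⁻¹ := fun z => by
      push_cast; rw [hUadd]; group
    rw [e, e, mul_one, sub_add_cancel, show y - 1 + Qz = y + (Qz - 1) by ring] at h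
    exact h
  have hperQ' : ∀ (y t : ℤ), F χ (y + (Qz - 1) * t) = F χ y := by
    intro y t
    induction t using Int.induction_on with
    | zero => simp
    | succ c hc => rw [mul_add, mul_one, ← add_assoc, hperQ, hc]
    | pred c hc =>
      have := hperQ (y + (Qz - 1) * (-(c : ℤ) - 1))
      rw [add_assoc, ← mul_add_one, sub_add_cancel, hc] at this
      exact this.symm
  have hcop : IsCoprime (ℓ : ℤ) (Qz - 1) :=
    (Prime.coprime_iff_not_dvd (Nat.prime_iff_prime_int.mp (Fact.out : ℓ.Prime))).mpr hℓQ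
  obtain ⟨u, v, huv⟩ := hcop
  have hfin : F χ ((N : ℤ) * i) = F χ 0 := by
    rw [show (N : ℤ) * i = (0 + (Qz - 1) * (N * v * i)) + (M : ℤ) * (u * i) by
      push_cast [M]; linear_combination -((N : ℤ) * i) * huv, hperM χ hχ, hperQ']
  simp only [F] at hfin
  push_cast at hfin
  rw [show uMat (0 : ℚ) = 1 from sl_ext rfl rfl rfl rfl, one_mul, inv_one, mul_one] at hfin
  exact hfin

end FermatAgent.LR

end
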