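import Fermat.Agent.LR.Ihara.Extend
import Fermat.Agent.LR.Ihara.Period

/-!
# Properties of the extended homomorphism

The extension kills the unipotent matrices, and on a principal group the conjugations by
`diag(ℓ, 1)` and by its inverse give the same values.
-/

set_option autoImplicit false

noncomputable section

open scoped MatrixGroups
open Matrix CongruenceSubgroup ModularCurve.Period

namespace FermatAgent.LR

variable {q N : ℕ} {k : Type*} [Field k] {u : Additive (Gamma0 N) →+ k} {Φ : SL(2, ℚ) → k}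

/-- A homomorphism on the level `N` group extending `u`. -/
def IsExtension (q : ℕ) (u : Additive (Gamma0 N) →+ k) (Φ : SL(2, ℚ) → k) : Prop :=
  (∀ g ∈ qGamma0 q N, ∀ h ∈ qGamma0 q N, Φ (g * h) = Φ g + Φ h) ∧
    ∀ γ : Gamma0 N, Φ (castQ (γ : SL(2, ℤ))) = u (Additive.ofMul γ)

lemma exists_gamma0 {g : SL(2, ℚ)} (A : Matrix (Fin 2) (Fin 2) ℤ) (hA : ∀ i j, (A i j : ℚ) = g i j)
    (hN : (N : ℤ) ∣ A 1 0) : ∃ γ : Gamma0 N, castQ (γ : SL(2, ℤ)) = g := by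
  have hdet : A.det = 1 := by
    have h := sl_det_eq g
    rw [← hA, ← hA, ← hA, ← hA] at h
    rw [Matrix.det_fin_two]
    exact_mod_cast h
  refine ⟨⟨⟨A, hdet⟩, Gamma0_mem.mpr ((ZMod.intCast_zmod_eq_zero_iff_dvd _ _).mpr hN)⟩, ?_⟩
  ext i j
  rw [castQ_apply]
  exact hA i j

/-- A unipotent matrix is a multiple of the square of a primitive integral vector, added to one. -/
lemma exists_fixed_line {g : SL(2, ℚ)} (h : IsUnip g) :
    ∃ a c : ℤ, ∃ x : ℚ, IsCoprime a c ∧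
      g 0 0 - 1 = -(x * a * c) ∧ g 0 1 = x * a ^ 2 ∧ g 1 0 = -(x * c ^ 2) := by
  have hd := sl_det_eq g
  simp only [IsUnip] at h
  by_cases hc : g 1 0 = 0
  · refine ⟨1, 0, g 0 1, isCoprime_one_left, ?_, by simp, by simp [hc]⟩
    have : (g 0 0 - 1) ^ 2 = 0 := by linear_combination -hd + g 0 0 * h - g 0 1 * hc
    simpa using this
  set t := (g 0 0 - 1) / g 1 0 with ht
  refine ⟨t.num, t.den, -(g 1 0) / (t.den : ℚ) ^ 2,
    Int.isCoprime_iff_nat_coprime.mpr t.reduced, ?_, ?_, ?_⟩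
  · have : t * g 1 0 = g 0 0 - 1 := div_mul_cancel₀ _ hc
    rw [← this]
    nth_rw 1 [← Rat.num_div_den t]
    push_cast
    field_simp
  · have h2 : g 0 1 = -(t ^ 2 * g 1 0) := by
      rw [ht]; field_simp
      linear_combination -hd + g 0 0 * h
    rw [h2]
    nth_rw 1 [← Rat.num_div_den t]
    field_simp
  · push_cast
    field_simp

/-- A unipotent matrix of the level `N` group is conjugate there to its `q ^ n`th power, for
arbitrarily large `n`. -/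
lemma exists_conj_eq_pow (hq : q.Prime) (hqN : ¬ q ∣ N) {g : SL(2, ℚ)} (h : IsUnip g) (m : ℕ) :
    ∃ n : ℕ, m ≤ n ∧ ∃ w ∈ qGamma0 q N, ∀ i j,
      (w * g * w⁻¹) i j = (1 : Matrix (Fin 2) (Fin 2) ℚ) i j +
        (q : ℚ) ^ n * (g i j - (1 : Matrix (Fin 2) (Fin 2) ℚ) i j) := by
  obtain ⟨a, c, x, ⟨d, b, hdb⟩, e00, e01, e10⟩ := exists_fixed_line h
  simp only [IsUnip] at h
  set j := (m + 1) * N.totient
  obtain ⟨e, he⟩ : (N : ℤ) ∣ (q : ℤ) ^ j - 1 := by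
    have h2 : q ^ j ≡ 1 [MOD N] := by
      simpa [j, mul_comm _ N.totient, pow_mul] using
        (Nat.ModEq.pow_totient (hq.coprime_iff_not_dvd.mpr hqN)).pow (m + 1)
    simpa using Nat.modEq_iff_dvd.mp h2.symm
  have hN : 0 < N.totient := Nat.totient_pos.mpr (Nat.pos_of_ne_zero (by rintro rfl; simp at hqN))
  have hs : ((q : ℚ) ^ j) ≠ 0 := pow_ne_zero _ (Nat.cast_ne_zero.mpr hq.ne_zero)
  have hbd : (d : ℚ) * a + b * c = 1 := by exact_mod_cast hdb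
  have heQ : (q : ℚ) ^ j - 1 = (N : ℚ) * e := by exact_mod_cast he
  set s : ℚ := (q : ℚ) ^ j
  set t := qUnit q hq j
  set γ : SL(2, ℚ) := ⟨!![(a : ℚ), -b; c, d], by
    rw [Matrix.det_fin_two_of]; linear_combination hbd⟩
  have f0 : γ 0 0 = a := rfl
  have f1 : γ 0 1 = -(b : ℚ) := rfl
  have f2 : γ 1 0 = c := rfl
  have f3 : γ 1 1 = d := rfl
  clear_value γ
  have hconj : ∀ (y : ℚ), ∀ i l, (γ * uMat y * γ⁻¹) i l = (1 : Matrix (Fin 2) (Fin 2) ℚ) i l +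
      y * (!![-((a : ℚ) * c), (a : ℚ) ^ 2; -(c : ℚ) ^ 2, (a : ℚ) * c] i l) := fun y i l => by
    obtain ⟨i0, i1, i2, i3⟩ := sl_inv_apply γ
    fin_cases i <;> fin_cases l <;> simp [sl_mul_apply, i0, i1, i2, i3, f0, f1, f2, f3]
    all_goals first | ring1 | linear_combination hbd
  have hg : g = γ * uMat x * γ⁻¹ :=
    sl_ext (by rw [hconj]; simp; linear_combination e00) (by rw [hconj]; simp [e01])
      (by rw [hconj]; simp [e10]) (by rw [hconj]; simp; linear_combination h - e00)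
  set D := dMat t
  have hD : D * uMat x * D⁻¹ = uMat (t * t * x) := by
    obtain ⟨i0, i1, i2, i3⟩ := sl_inv_apply D
    refine sl_ext ?_ ?_ ?_ ?_ <;> simp [sl_mul_apply, i0, i1, i2, i3, D]
    ring
  refine ⟨j + j, by have := Nat.le_mul_of_pos_right (m + 1) hN; simp only [j]; omega,
    γ * D * γ⁻¹, ⟨fun i l => ?_, ?_⟩, fun i l => ?_⟩
  · obtain ⟨i0, i1, i2, i3⟩ := sl_inv_apply γ
    have hsq : (q : ℚ) ^ j ∈ qInt q := pow_mem (natCast_mem_qInt q) j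
    have hsi : ((q : ℚ) ^ j)⁻¹ ∈ qInt q := inv_pow_mem_qInt hq.ne_zero j
    fin_cases i <;> fin_cases l <;>
      simp [sl_mul_apply, i0, i1, i2, i3, f0, f1, f2, f3, D, t, coe_qUnit] <;>
      apply_rules [add_mem, mul_mem, neg_mem, intCast_mem_qInt]
  · obtain ⟨i0, i1, i2, i3⟩ := sl_inv_apply γ
    refine mem_qMul.mpr ⟨c * d * e * ((q : ℚ) ^ j + 1) * ((q : ℚ) ^ j)⁻¹, ?_, ?_⟩
    · exact mul_mem (mul_mem (mul_mem (mul_mem (intCast_mem_qInt c) (intCast_mem_qInt d))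
        (intCast_mem_qInt e)) (add_mem (pow_mem (natCast_mem_qInt q) j) (one_mem _)))
        (inv_pow_mem_qInt hq.ne_zero j)
    · simp [sl_mul_apply, i0, i2, f2, f3, D, t, coe_qUnit]
      rw [show (q : ℚ) ^ j = s from rfl]
      clear_value s
      field_simp
      linear_combination -((c : ℚ) * d * (s + 1)) * heQ
  · rw [show γ * D * γ⁻¹ * g * (γ * D * γ⁻¹)⁻¹ = γ * (D * uMat x * D⁻¹) * γ⁻¹ by
      rw [hg]; group, hD, hconj, hg, hconj, coe_qUnit, pow_add]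
    ring

namespace IsExtension

variable (hΦ : IsExtension q u Φ)
include hΦ

lemma map_one : Φ 1 = 0 := by
  have h := hΦ.1 1 (one_mem _) 1 (one_mem _)
  rwa [one_mul, left_eq_add] at h

lemma map_inv {g : SL(2, ℚ)} (hg : g ∈ qGamma0 q N) : Φ g⁻¹ = -Φ g := by
  have h := hΦ.1 g⁻¹ (inv_mem hg) g hg
  rw [inv_mul_cancel, hΦ.map_one] at h
  exact eq_neg_of_add_eq_zero_left h.symm

lemma map_conj {w g : SL(2, ℚ)} (hw : w ∈ qGamma0 q N) (hg : g ∈ qGamma0 q N) :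
    Φ (w * g * w⁻¹) = Φ g := by
  rw [hΦ.1 _ (mul_mem hw hg) _ (inv_mem hw), hΦ.1 _ hw _ hg, hΦ.map_inv hw]
  abel

lemma map_pow {g : SL(2, ℚ)} (hg : g ∈ qGamma0 q N) (n : ℕ) : Φ (g ^ n) = (n : k) * Φ g := by
  induction n with
  | zero => simp [hΦ.map_one]
  | succ n ih =>
    rw [pow_succ, hΦ.1 _ (pow_mem hg n) _ hg, ih]
    push_cast; ring

/-- The extension kills the unipotent matrices. -/
theorem eq_zero_of_isUnip (hq : q.Prime) (hqN : ¬ q ∣ N)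
    (hu : IsParabolicHom (Gamma0 N) u) {g : SL(2, ℚ)} (hg : g ∈ qGamma0 q N) (h : IsUnip g) :
    Φ g = 0 := by
  have hpow : ∀ n : ℕ, ∀ i j, (g ^ n) i j = (1 : Matrix (Fin 2) (Fin 2) ℚ) i j +
      (n : ℚ) * (g i j - (1 : Matrix (Fin 2) (Fin 2) ℚ) i j) := by
    intro n
    have hd := sl_det_eq g
    simp only [IsUnip] at h
    induction n with
    | zero => intro i j; simp
    | succ n ih =>
      intro i j
      rw [pow_succ, sl_mul_apply, ih, ih]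
      fin_cases i <;> fin_cases j <;> simp [Matrix.one_apply]
      · linear_combination (n : ℚ) * g 0 0 * h - (n : ℚ) * hd
      · linear_combination (n : ℚ) * g 0 1 * h
      · linear_combination (n : ℚ) * g 1 0 * h
      · linear_combination (n : ℚ) * g 1 1 * h - (n : ℚ) * hd
  obtain ⟨y, hy, hy10⟩ := mem_qMul.mp hg.2
  obtain ⟨m₁, z₁, h₁⟩ := mem_qInt.mp (hg.1 0 0)
  obtain ⟨m₂, z₂, h₂⟩ := mem_qInt.mp (hg.1 0 1)
  obtain ⟨m₃, z₃, h₃⟩ := mem_qInt.mp hy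
  set m := m₁ + m₂ + m₃ with hm
  set A : Matrix (Fin 2) (Fin 2) ℤ :=
    !![1 + (z₁ * q ^ (m₂ + m₃) - q ^ m), z₂ * q ^ (m₁ + m₃); N * (z₃ * q ^ (m₁ + m₂)),
      1 - (z₁ * q ^ (m₂ + m₃) - q ^ m)] with hA
  obtain ⟨γ, hγ⟩ := exists_gamma0 (N := N) (g := g ^ q ^ m) A (fun i j => by
    have h' : g 0 0 + g 1 1 = 2 := h
    rw [hpow]
    fin_cases i <;> fin_cases j <;> simp [hA] <;>
      simp only [hm, pow_add, ← h₁, ← h₂, ← h₃, ← hy10]
    all_goals first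
      | ring1
      | linear_combination -((q : ℚ) ^ m₁ * (q : ℚ) ^ m₂ * (q : ℚ) ^ m₃) * h')
    (by simp [hA])
  have h0 : u (Additive.ofMul γ) = 0 := hu γ (by
    have hq2 : (g ^ q ^ m) 0 0 + (g ^ q ^ m) 1 1 = 2 := by
      simp only [IsUnip] at h
      rw [hpow, hpow]
      simp
      linear_combination ((q : ℚ) ^ m) * h
    rw [← hγ, castQ_apply, castQ_apply] at hq2
    rw [Matrix.trace_fin_two,
      show (γ : SL(2, ℤ)) 0 0 + (γ : SL(2, ℤ)) 1 1 = 2 by exact_mod_cast hq2]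
    norm_num)
  have h1 := hΦ.map_pow hg (q ^ m)
  rw [← hγ, hΦ.2, h0] at h1
  obtain ⟨n, hn, w, hw, hwg⟩ := exists_conj_eq_pow hq hqN h m
  have h2 : w * g * w⁻¹ = g ^ q ^ n := by
    ext i j; rw [hwg, hpow, Nat.cast_pow]
  have h3 := hΦ.map_conj hw hg
  rw [h2, hΦ.map_pow hg, show n = (n - m) + m by omega, pow_add, Nat.cast_mul, mul_assoc,
    ← h1, mul_zero] at h3
  exact h3.symm

lemma isUnipHom_comp_dil (hq : q.Prime) (hqN : ¬ q ∣ N) (hu : IsParabolicHom (Gamma0 N) u)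
    {M : ℕ} (t : ℚˣ) (ht : ∀ g ∈ qPrincipal q M, dil t g ∈ qGamma0 q N) :
    IsUnipHom q M fun g => Φ (dil t g) :=
  ⟨fun g hg h hh => by
    show Φ (dil t (g * h)) = _
    rw [_root_.map_mul, hΦ.1 _ (ht g hg) _ (ht h hh)],
  fun g hg h => hΦ.eq_zero_of_isUnip hq hqN hu (ht g hg) (h.dil t)⟩

end IsExtension

/-- A prime as a rational unit. -/
def natUnit (ℓ : ℕ) [Fact ℓ.Prime] : ℚˣ :=
  Units.mk0 (ℓ : ℚ) (Nat.cast_ne_zero.mpr (Fact.out : ℓ.Prime).ne_zero)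

variable {ℓ : ℕ} [Fact ℓ.Prime]

@[simp] lemma coe_natUnit : ((natUnit ℓ : ℚˣ) : ℚ) = ℓ := rfl

lemma coe_natUnit_inv : (((natUnit ℓ)⁻¹ : ℚˣ) : ℚ) = (ℓ : ℚ)⁻¹ :=
  Units.val_inv_eq_inv_val _

lemma qMul_div {M : ℕ} {x : ℚ} (hx : x ∈ qMul q (M * ℓ)) : (ℓ : ℚ)⁻¹ * x ∈ qMul q M := by
  obtain ⟨y, hy, rfl⟩ := mem_qMul.mp hx
  refine mem_qMul.mpr ⟨y, hy, ?_⟩
  have : (ℓ : ℚ) ≠ 0 := Nat.cast_ne_zero.mpr (Fact.out : ℓ.Prime).ne_zero
  push_cast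
  field_simp

lemma dil_natUnit_mem {M : ℕ} {g : SL(2, ℚ)} (hg : g ∈ qPrincipal q (M * ℓ)) :
    dil (natUnit ℓ) g ∈ qPrincipal q M ∧ dil (natUnit ℓ)⁻¹ g ∈ qPrincipal q M := by
  obtain ⟨a, b, c, d⟩ := hg
  have hl : M ∣ M * ℓ := dvd_mul_right _ _
  refine ⟨⟨by simpa using qMul_mono hl a, ?_, ?_, by simpa using qMul_mono hl d⟩,
    ⟨by simpa using qMul_mono hl a, ?_, ?_, by simpa using qMul_mono hl d⟩⟩
  · simpa using mul_mem_qMul' (natCast_mem_qInt ℓ) (qMul_mono hl b)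
  · simpa using qMul_div c
  · simpa using qMul_div b
  · simpa using mul_mem_qMul' (natCast_mem_qInt ℓ) (qMul_mono hl c)

lemma dil_conj_eq (t : ℚˣ) (w g γ : SL(2, ℚ)) (h00 : γ 0 0 = t * w 0 0) (h01 : γ 0 1 = w 0 1)
    (h10 : γ 1 0 = w 1 0) (h11 : γ 1 1 = ((t⁻¹ : ℚˣ) : ℚ) * w 1 1) :
    dil t (w * g * w⁻¹) = γ * dil t⁻¹ g * γ⁻¹ := by
  obtain ⟨e0, e1, e2, e3⟩ := sl_inv_apply w
  obtain ⟨f0, f1, f2, f3⟩ := sl_inv_apply γ
  refine sl_ext ?_ ?_ ?_ ?_ <;>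
    simp only [dil_00, dil_01, dil_10, dil_11, sl_mul_apply, e0, e1, e2, e3, f0, f1, f2, f3, h00,
      h01, h10, h11, inv_inv, Units.val_inv_eq_inv_val] <;> field_simp

lemma IsUnipHom.map_conj_lMat {M : ℕ} {χ : SL(2, ℚ) → k} (hχ : IsUnipHom q M χ) (z : ℤ)
    (hinv : ∀ ψ : SL(2, ℚ) → k, IsUnipHom q M ψ → ∀ g ∈ qPrincipal q M,
      ψ (uMat ((N : ℚ) * z) * g * (uMat ((N : ℚ) * z))⁻¹) = ψ g)
    {g : SL(2, ℚ)} (hg : g ∈ qPrincipal q M) :
    χ (lMat (-((N : ℚ) * z)) * g * (lMat (-((N : ℚ) * z)))⁻¹) = χ g := by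
  set W : SL(2, ℚ) := ⟨!![0, -1; 1, 0], by simp⟩
  have hW : ∀ i j, W i j ∈ qInt q := fun i j => by
    fin_cases i <;> fin_cases j <;> simp [W]
  have hW' : ∀ i j, W⁻¹ i j ∈ qInt q := fun i j => by
    obtain ⟨e0, e1, e2, e3⟩ := sl_inv_apply W
    fin_cases i <;> fin_cases j <;> simp [e0, e1, e2, e3, W]
  have hg' := conj_mem_qPrincipal hg hW'
  have hL : lMat (-((N : ℚ) * z)) = W * uMat ((N : ℚ) * z) * W⁻¹ := by
    obtain ⟨e0, e1, e2, e3⟩ := sl_inv_apply W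
    refine sl_ext ?_ ?_ ?_ ?_ <;> simp [sl_mul_apply, e0, e1, e2, e3, W]
  have h := hinv _ (hχ.comp_conj (w := W) hW) _ hg'
  rw [hL]
  simp only [inv_inv] at h
  convert h using 1 <;> congr 1 <;> group

variable (hΦ : IsExtension q u Φ)
include hΦ

/-- The two dilations by `ℓ` give the same values. -/
theorem IsExtension.dil_eq_dil_inv (hq : q.Prime)
    (hu : IsParabolicHom (Gamma0 N) u) (hN : 0 < N) (hℓN : ¬ ℓ ∣ N) (hℓq : ℓ ≠ q) (hqN : ¬ q ∣ N)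
    (hord : (q : ZMod ℓ) ^ (4 * N ^ 2) ≠ 1) {g : SL(2, ℚ)} (hg : g ∈ qPrincipal q (N * ℓ)) :
    Φ (dil (natUnit ℓ) g) = Φ (dil (natUnit ℓ)⁻¹ g) := by
  have hℓ : ℓ.Prime := Fact.out
  have hM : 2 ≤ N * ℓ := le_trans hℓ.two_le (Nat.le_mul_of_pos_left _ hN)
  have hqM : ¬ q ∣ N * ℓ := fun h => (hq.dvd_mul.mp h).elim hqN
    fun h' => hℓq ((Nat.prime_dvd_prime_iff_eq hq hℓ).mp h').symm
  -- the prime power
  set o := orderOf ((q : ZMod ℓ) ^ 2)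
  have ho : ¬ o ∣ 2 * N ^ 2 := fun h => hord (by
    have := orderOf_dvd_iff_pow_eq_one.mp h
    rwa [← pow_mul, show 2 * (2 * N ^ 2) = 4 * N ^ 2 by ring] at this)
  obtain ⟨r, b, hr, hro, hr2⟩ : ∃ r b : ℕ, r.Prime ∧ r ^ b ∣ o ∧ ¬ r ^ b ∣ 2 * N ^ 2 := by
    by_contra! h
    exact ho ((Nat.dvd_iff_prime_pow_dvd_dvd _ _).mpr fun r b hr hd => h r b hr hd)
  have hrb : 2 < r ^ b := by
    by_contra! h
    have h0 : 0 < r ^ b := pow_pos hr.pos b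
    interval_cases h1 : r ^ b
    · exact hr2 (one_dvd _)
    · exact hr2 (dvd_mul_right _ _)
  have hcop : (r ^ b).Coprime ℓ := by
    refine (hℓ.coprime_iff_not_dvd.mpr fun h => ?_).symm
    have hq0 : (q : ZMod ℓ) ≠ 0 := fun h => hℓq
      ((Nat.prime_dvd_prime_iff_eq hℓ hq).mp ((ZMod.natCast_eq_zero_iff _ _).mp h))
    have h1 : o ∣ ℓ - 1 := orderOf_dvd_of_pow_eq_one (by
      rw [← pow_mul, mul_comm, pow_mul, ZMod.pow_card_sub_one_eq_one hq0, one_pow])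
    have := Nat.le_of_dvd (by have := hℓ.two_le; omega) (h.trans (hro.trans h1))
    have := hℓ.two_le
    omega
  have hrM : ¬ r ^ b ∣ N * ℓ * (N * ℓ) := fun h => hr2 (by
    rw [show N * ℓ * (N * ℓ) = N ^ 2 * ℓ ^ 2 by ring] at h
    exact ((hcop.pow_right 2).dvd_of_dvd_mul_right h).mul_left 2)
  have hinv := fun (z : ℤ) (ψ : SL(2, ℚ) → k) (hψ : IsUnipHom q (N * ℓ) ψ) g
      (hg : g ∈ qPrincipal q (N * ℓ)) =>
    unipHom_uMat_invariant hq hM hqM hr hrb hrM hro hψ z hg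
  -- the matrix congruent to `(0 1; -1 0)` modulo `ℓ`
  obtain ⟨s, t, hst⟩ := (Nat.isCoprime_iff_coprime.mpr (hℓ.coprime_iff_not_dvd.mpr hℓN).symm :
    IsCoprime (N : ℤ) (ℓ : ℤ))
  set x : ℚ := (N : ℚ) * s
  set w := uMat x * (lMat (-x) * uMat x) with hw
  have hUint : ∀ i j, uMat x i j ∈ qInt q := fun i j => by
    fin_cases i <;> fin_cases j <;> simp [x, mul_mem]
  have hLint : ∀ i j, lMat (-x) i j ∈ qInt q := fun i j => by
    fin_cases i <;> fin_cases j <;> simp [x, mul_mem]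
  have hto : ∀ {M : ℕ} {g : SL(2, ℚ)}, g ∈ qPrincipal q (M * ℓ) → N ∣ M →
      dil (natUnit ℓ) g ∈ qGamma0 q N ∧ dil (natUnit ℓ)⁻¹ g ∈ qGamma0 q N := fun hg hd =>
    ⟨qPrincipal_le_qGamma0 hd (dil_natUnit_mem hg).1,
      qPrincipal_le_qGamma0 hd (dil_natUnit_mem hg).2⟩
  have hχ : IsUnipHom q (N * ℓ) fun g => Φ (dil (natUnit ℓ) g) :=
    hΦ.isUnipHom_comp_dil hq hqN hu _ fun g hg => (hto hg dvd_rfl).1
  have hwg : Φ (dil (natUnit ℓ) (w * g * w⁻¹)) = Φ (dil (natUnit ℓ) g) := by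
    have h1 := conj_mem_qPrincipal hg hUint
    have h2 := conj_mem_qPrincipal h1 hLint
    have e : w * g * w⁻¹ = uMat x * (lMat (-x) * (uMat x * g * (uMat x)⁻¹) * (lMat (-x))⁻¹) *
        (uMat x)⁻¹ := by rw [hw]; group
    rw [e]
    exact ((hinv s _ hχ _ h2).trans (hχ.map_conj_lMat s (hinv s) h1)).trans (hinv s _ hχ _ hg)
  -- the element of `Γ₀(N)`
  obtain ⟨γ, hγ⟩ := exists_gamma0 (N := N)
    (g := (⟨!![(ℓ : ℚ) * w 0 0, w 0 1; w 1 0, (ℓ : ℚ)⁻¹ * w 1 1], by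
      have := sl_det_eq w
      have : (ℓ : ℚ) ≠ 0 := Nat.cast_ne_zero.mpr hℓ.ne_zero
      rw [Matrix.det_fin_two_of]
      field_simp
      linarith [sl_det_eq w]⟩ : SL(2, ℚ)))
    !![(ℓ : ℤ) * (1 - (N * s) ^ 2), 2 * (N * s) - (N * s) ^ 3; -(N * s),
      t * (1 + N * s)] (fun i j => by
      have hstQ : ((N : ℚ) * s) = 1 - (t : ℚ) * ℓ := by
        have : ((s * N + t * ℓ : ℤ) : ℚ) = 1 := by rw [hst]; simp
        push_cast at this; linarith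
      have : (ℓ : ℚ) ≠ 0 := Nat.cast_ne_zero.mpr hℓ.ne_zero
      fin_cases i <;> fin_cases j <;> simp [hw, sl_mul_apply, x]
      all_goals first
        | ring1
        | exact Or.inl (by ring)
        | (rw [eq_inv_mul_iff_mul_eq₀ this]; linear_combination (1 + (N : ℚ) * s) * hstQ))
    (by simp)
  have hdil : dil (natUnit ℓ) (w * g * w⁻¹) =
      castQ (γ : SL(2, ℤ)) * dil (natUnit ℓ)⁻¹ g * (castQ (γ : SL(2, ℤ)))⁻¹ :=
    dil_conj_eq _ _ _ _ (by rw [hγ]; simp) (by rw [hγ]; simp) (by rw [hγ]; simp) (by rw [hγ]; simp)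
  rw [← hwg, hdil, hΦ.map_conj (castQ_mem γ) (hto hg dvd_rfl).2]

end FermatAgent.LR

end
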