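import Mathlib

/-!
# Rational unimodular matrices integral away from a prime

The groups of level `N` and the principal groups of level `M` inside `SL(2, ℚ)` with entries having
only powers of `q` as denominators, the unipotent matrices and the dilations.
-/

set_option autoImplicit false

noncomputable section

open scoped MatrixGroups
open Matrix

namespace FermatAgent.LR

variable (q : ℕ)

/-- The rationals with a power of `q` as denominator. -/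
def qInt : Subring ℚ where
  carrier := {x | ∃ (m : ℕ) (z : ℤ), x * (q : ℚ) ^ m = z}
  one_mem' := ⟨0, 1, by simp⟩
  zero_mem' := ⟨0, 0, by simp⟩
  mul_mem' := by
    rintro x y ⟨m, z, hx⟩ ⟨n, w, hy⟩
    exact ⟨m + n, z * w, by push_cast; rw [← hx, ← hy]; ring⟩
  add_mem' := by
    rintro x y ⟨m, z, hx⟩ ⟨n, w, hy⟩
    exact ⟨m + n, z * q ^ n + w * q ^ m, by push_cast; rw [← hx, ← hy]; ring⟩
  neg_mem' := by
    rintro x ⟨m, z, hx⟩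
    exact ⟨m, -z, by push_cast; rw [← hx]; ring⟩

variable {q}

lemma mem_qInt {x : ℚ} : x ∈ qInt q ↔ ∃ (m : ℕ) (z : ℤ), x * (q : ℚ) ^ m = z := Iff.rfl

lemma intCast_mem_qInt (z : ℤ) : (z : ℚ) ∈ qInt q := ⟨0, z, by simp⟩

lemma natCast_mem_qInt (z : ℕ) : (z : ℚ) ∈ qInt q := ⟨0, z, by simp⟩

lemma inv_pow_mem_qInt (hq : q ≠ 0) (n : ℕ) : ((q : ℚ) ^ n)⁻¹ ∈ qInt q :=
  ⟨n, 1, by rw [inv_mul_cancel₀ (pow_ne_zero _ (by exact_mod_cast hq))]; simp⟩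

/-- Multiples of `M` in the rationals with denominator a power of `q`. -/
def qMul (q M : ℕ) : AddSubgroup ℚ :=
  (qInt q).toAddSubgroup.map (AddMonoidHom.mulLeft (M : ℚ))

lemma mem_qMul {M : ℕ} {x : ℚ} : x ∈ qMul q M ↔ ∃ y ∈ qInt q, (M : ℚ) * y = x := Iff.rfl

lemma qMul_le_qInt {M : ℕ} {x : ℚ} (hx : x ∈ qMul q M) : x ∈ qInt q := by
  obtain ⟨y, hy, rfl⟩ := mem_qMul.mp hx
  exact mul_mem (natCast_mem_qInt M) hy

lemma mul_mem_qMul {M : ℕ} {x y : ℚ} (hx : x ∈ qMul q M) (hy : y ∈ qInt q) : x * y ∈ qMul q M := by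
  obtain ⟨z, hz, rfl⟩ := mem_qMul.mp hx
  exact mem_qMul.mpr ⟨z * y, mul_mem hz hy, (mul_assoc _ _ _).symm⟩

lemma mul_mem_qMul' {M : ℕ} {x y : ℚ} (hx : x ∈ qInt q) (hy : y ∈ qMul q M) : x * y ∈ qMul q M :=
  mul_comm y x ▸ mul_mem_qMul hy hx

lemma self_mul_mem_qMul {M : ℕ} {y : ℚ} (hy : y ∈ qInt q) : (M : ℚ) * y ∈ qMul q M :=
  mem_qMul.mpr ⟨y, hy, rfl⟩

lemma qMul_mul_left {a M : ℕ} {x : ℚ} (hx : x ∈ qMul q (a * M)) :
    x ∈ qMul q a ∧ x ∈ qMul q M := by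
  obtain ⟨y, hy, rfl⟩ := mem_qMul.mp hx
  exact ⟨mem_qMul.mpr ⟨M * y, mul_mem (natCast_mem_qInt M) hy, by push_cast; ring⟩,
    mem_qMul.mpr ⟨a * y, mul_mem (natCast_mem_qInt a) hy, by push_cast; ring⟩⟩

lemma qMul_mono {a M : ℕ} (h : a ∣ M) {x : ℚ} (hx : x ∈ qMul q M) : x ∈ qMul q a := by
  obtain ⟨c, rfl⟩ := h
  exact (qMul_mul_left hx).1

/-- The entries of a product. -/
lemma sl_mul_apply (g h : SL(2, ℚ)) (i j : Fin 2) :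
    (g * h) i j = g i 0 * h 0 j + g i 1 * h 1 j := by
  simp [Matrix.SpecialLinearGroup.coe_mul, Matrix.mul_apply, Fin.sum_univ_two]

lemma sl_det_eq (g : SL(2, ℚ)) : g 0 0 * g 1 1 - g 0 1 * g 1 0 = 1 := by
  have := g.det_coe
  rwa [Matrix.det_fin_two] at this

lemma sl_inv_apply (g : SL(2, ℚ)) :
    (g⁻¹) 0 0 = g 1 1 ∧ (g⁻¹) 0 1 = -g 0 1 ∧ (g⁻¹) 1 0 = -g 1 0 ∧ (g⁻¹) 1 1 = g 0 0 := by
  simp [Matrix.SpecialLinearGroup.coe_inv, Matrix.adjugate_fin_two]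

lemma sl_ext {g h : SL(2, ℚ)} (h00 : g 0 0 = h 0 0) (h01 : g 0 1 = h 0 1) (h10 : g 1 0 = h 1 0)
    (h11 : g 1 1 = h 1 1) : g = h := by
  ext i j
  fin_cases i <;> fin_cases j <;> assumption

variable (q)

/-- The group of level `N`. -/
def qGamma0 (N : ℕ) : Subgroup SL(2, ℚ) where
  carrier := {g | (∀ i j, g i j ∈ qInt q) ∧ g 1 0 ∈ qMul q N}
  one_mem' := by
    refine ⟨fun i j => ?_, by simp⟩
    fin_cases i <;> fin_cases j <;> simp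
  mul_mem' := by
    rintro g h ⟨hg, hg'⟩ ⟨hh, hh'⟩
    refine ⟨fun i j => ?_, ?_⟩
    · rw [sl_mul_apply]
      exact add_mem (mul_mem (hg i 0) (hh 0 j)) (mul_mem (hg i 1) (hh 1 j))
    · rw [sl_mul_apply]
      exact add_mem (mul_mem_qMul hg' (hh 0 0)) (mul_mem_qMul' (hg 1 1) hh')
  inv_mem' := by
    rintro g ⟨hg, hg'⟩
    obtain ⟨e0, e1, e2, e3⟩ := sl_inv_apply g
    refine ⟨fun i j => ?_, e2 ▸ neg_mem hg'⟩
    fin_cases i <;> fin_cases j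
    · exact e0 ▸ hg 1 1
    · exact e1 ▸ neg_mem (hg 0 1)
    · exact e2 ▸ neg_mem (hg 1 0)
    · exact e3 ▸ hg 0 0

/-- The matrices congruent to the identity modulo `M`. -/
def qPrincipal (M : ℕ) : Subgroup SL(2, ℚ) where
  carrier := {g | g 0 0 - 1 ∈ qMul q M ∧ g 0 1 ∈ qMul q M ∧ g 1 0 ∈ qMul q M ∧ g 1 1 - 1 ∈ qMul q M}
  one_mem' := by simp
  mul_mem' := by
    rintro g h ⟨a, b, c, d⟩ ⟨a', b', c', d'⟩
    have one_add : ∀ {x : ℚ}, x - 1 ∈ qMul q M → x ∈ qInt q := fun {x} hx => by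
      have := add_mem (qMul_le_qInt hx) (one_mem (qInt q))
      rwa [sub_add_cancel] at this
    simp only [Set.mem_ofPred_eq, sl_mul_apply]
    refine ⟨?_, add_mem (mul_mem_qMul' (one_add a) b') (mul_mem_qMul b (one_add d')),
      add_mem (mul_mem_qMul c (one_add a')) (mul_mem_qMul' (one_add d) c'), ?_⟩
    · have h1 : g 0 0 * h 0 0 + g 0 1 * h 1 0 - 1 =
          (g 0 0 - 1) * h 0 0 + (h 0 0 - 1) + g 0 1 * h 1 0 := by ring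
      rw [h1]
      exact add_mem (add_mem (mul_mem_qMul a (one_add a')) a') (mul_mem_qMul b (qMul_le_qInt c'))
    · have h1 : g 1 0 * h 0 1 + g 1 1 * h 1 1 - 1 =
          (g 1 1 - 1) * h 1 1 + (h 1 1 - 1) + g 1 0 * h 0 1 := by ring
      rw [h1]
      exact add_mem (add_mem (mul_mem_qMul d (one_add d')) d') (mul_mem_qMul c (qMul_le_qInt b'))
  inv_mem' := by
    rintro g ⟨a, b, c, d⟩
    obtain ⟨e0, e1, e2, e3⟩ := sl_inv_apply g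
    exact ⟨e0 ▸ d, e1 ▸ neg_mem b, e2 ▸ neg_mem c, e3 ▸ a⟩

variable {q}

lemma qPrincipal_entry {M : ℕ} {g : SL(2, ℚ)} (hg : g ∈ qPrincipal q M) :
    ∀ i j, g i j ∈ qInt q := by
  obtain ⟨a, b, c, d⟩ := hg
  intro i j
  fin_cases i <;> fin_cases j
  · have := add_mem (qMul_le_qInt a) (one_mem (qInt q))
    rwa [sub_add_cancel] at this
  · exact qMul_le_qInt b
  · exact qMul_le_qInt c
  · have := add_mem (qMul_le_qInt d) (one_mem (qInt q))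
    rwa [sub_add_cancel] at this

lemma qPrincipal_le_qGamma0 {N M : ℕ} (h : N ∣ M) : qPrincipal q M ≤ qGamma0 q N :=
  fun _ hg => ⟨qPrincipal_entry hg, qMul_mono h hg.2.2.1⟩

/-- An upper unipotent matrix. -/
def uMat (x : ℚ) : SL(2, ℚ) := ⟨!![1, x; 0, 1], by simp⟩

/-- A lower unipotent matrix. -/
def lMat (x : ℚ) : SL(2, ℚ) := ⟨!![1, 0; x, 1], by simp⟩

/-- A diagonal matrix. -/
def dMat (t : ℚˣ) : SL(2, ℚ) := ⟨!![(t : ℚ), 0; 0, ((t⁻¹ : ℚˣ) : ℚ)], by simp⟩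

@[simp] lemma uMat_00 (x : ℚ) : uMat x 0 0 = 1 := rfl
@[simp] lemma uMat_01 (x : ℚ) : uMat x 0 1 = x := rfl
@[simp] lemma uMat_10 (x : ℚ) : uMat x 1 0 = 0 := rfl
@[simp] lemma uMat_11 (x : ℚ) : uMat x 1 1 = 1 := rfl
@[simp] lemma lMat_00 (x : ℚ) : lMat x 0 0 = 1 := rfl
@[simp] lemma lMat_01 (x : ℚ) : lMat x 0 1 = 0 := rfl
@[simp] lemma lMat_10 (x : ℚ) : lMat x 1 0 = x := rfl
@[simp] lemma lMat_11 (x : ℚ) : lMat x 1 1 = 1 := rfl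
@[simp] lemma dMat_00 (t : ℚˣ) : dMat t 0 0 = t := rfl
@[simp] lemma dMat_01 (t : ℚˣ) : dMat t 0 1 = 0 := rfl
@[simp] lemma dMat_10 (t : ℚˣ) : dMat t 1 0 = 0 := rfl
@[simp] lemma dMat_11 (t : ℚˣ) : dMat t 1 1 = ((t⁻¹ : ℚˣ) : ℚ) := rfl

lemma uMat_mem_qPrincipal {M : ℕ} {x : ℚ} (hx : x ∈ qMul q M) : uMat x ∈ qPrincipal q M :=
  ⟨by simp, by simpa using hx, by simp, by simp⟩

lemma lMat_mem_qPrincipal {M : ℕ} {x : ℚ} (hx : x ∈ qMul q M) : lMat x ∈ qPrincipal q M :=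
  ⟨by simp, by simp, by simpa using hx, by simp⟩

/-- A unimodular matrix with trace two. -/
def IsUnip (g : SL(2, ℚ)) : Prop := g 0 0 + g 1 1 = 2

lemma isUnip_uMat (x : ℚ) : IsUnip (uMat x) := by norm_num [IsUnip]

lemma isUnip_lMat (x : ℚ) : IsUnip (lMat x) := by norm_num [IsUnip]

lemma IsUnip.conj {g : SL(2, ℚ)} (h : IsUnip g) (w : SL(2, ℚ)) : IsUnip (w * g * w⁻¹) := by
  obtain ⟨e0, e1, e2, e3⟩ := sl_inv_apply w
  simp only [IsUnip, sl_mul_apply, e0, e1, e2, e3] at h ⊢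
  linear_combination (g 0 0 + g 1 1) * sl_det_eq w + h

/-- Conjugation by `diag(t, 1)`. -/
def dil (t : ℚˣ) : SL(2, ℚ) →* SL(2, ℚ) where
  toFun g := ⟨!![g 0 0, (t : ℚ) * g 0 1; ((t⁻¹ : ℚˣ) : ℚ) * g 1 0, g 1 1], by
    rw [Matrix.det_fin_two_of]
    have := sl_det_eq g
    have h1 : (t : ℚ) * ((t⁻¹ : ℚˣ) : ℚ) = 1 := t.mul_inv
    linear_combination this - (g 0 1 * g 1 0) * h1⟩
  map_one' := sl_ext rfl (by simp) (by simp) rfl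
  map_mul' g h := by
    have h1 : (t : ℚ) * ((t⁻¹ : ℚˣ) : ℚ) = 1 := t.mul_inv
    refine sl_ext ?_ ?_ ?_ ?_ <;> simp only [sl_mul_apply] <;>
      simp <;> field_simp

@[simp] lemma dil_00 (t : ℚˣ) (g : SL(2, ℚ)) : dil t g 0 0 = g 0 0 := rfl
@[simp] lemma dil_01 (t : ℚˣ) (g : SL(2, ℚ)) : dil t g 0 1 = t * g 0 1 := rfl
@[simp] lemma dil_10 (t : ℚˣ) (g : SL(2, ℚ)) : dil t g 1 0 = ((t⁻¹ : ℚˣ) : ℚ) * g 1 0 := rfl
@[simp] lemma dil_11 (t : ℚˣ) (g : SL(2, ℚ)) : dil t g 1 1 = g 1 1 := rfl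

lemma dil_dil (s t : ℚˣ) (g : SL(2, ℚ)) : dil s (dil t g) = dil (s * t) g := by
  refine sl_ext ?_ ?_ ?_ ?_ <;> simp [mul_assoc, mul_comm]

lemma dil_one (g : SL(2, ℚ)) : dil 1 g = g := by
  refine sl_ext ?_ ?_ ?_ ?_ <;> simp

lemma dil_uMat (t : ℚˣ) (x : ℚ) : dil t (uMat x) = uMat (t * x) := by
  refine sl_ext ?_ ?_ ?_ ?_ <;> simp

lemma IsUnip.dil {g : SL(2, ℚ)} (h : IsUnip g) (t : ℚˣ) : IsUnip (dil t g) := by
  simpa [IsUnip] using h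

/-- The principal group is normalised by the integral matrices away from `q`. -/
lemma conj_mem_qPrincipal {M : ℕ} {g w : SL(2, ℚ)} (hg : g ∈ qPrincipal q M)
    (hw : ∀ i j, w i j ∈ qInt q) : w * g * w⁻¹ ∈ qPrincipal q M := by
  obtain ⟨e0, e1, e2, e3⟩ := sl_inv_apply w
  obtain ⟨a, b, c, d⟩ := hg
  have hd := sl_det_eq w
  show _ ∧ _ ∧ _ ∧ _
  simp only [sl_mul_apply, e0, e1, e2, e3]
  refine ⟨?_, ?_, ?_, ?_⟩
  · rw [show (w 0 0 * g 0 0 + w 0 1 * g 1 0) * w 1 1 + (w 0 0 * g 0 1 + w 0 1 * g 1 1) *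
      -w 1 0 - 1 =
      (g 0 0 - 1) * (w 0 0 * w 1 1) + g 1 0 * (w 0 1 * w 1 1) + g 0 1 * (-(w 0 0 * w 1 0)) +
        (g 1 1 - 1) * (-(w 0 1 * w 1 0)) by linear_combination hd]
    exact add_mem (add_mem (add_mem (mul_mem_qMul a (mul_mem (hw 0 0) (hw 1 1)))
      (mul_mem_qMul c (mul_mem (hw 0 1) (hw 1 1))))
      (mul_mem_qMul b (neg_mem (mul_mem (hw 0 0) (hw 1 0)))))
      (mul_mem_qMul d (neg_mem (mul_mem (hw 0 1) (hw 1 0))))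
  · rw [show (w 0 0 * g 0 0 + w 0 1 * g 1 0) * -w 0 1 + (w 0 0 * g 0 1 + w 0 1 * g 1 1) * w 0 0 =
      (g 0 0 - 1) * (-(w 0 0 * w 0 1)) + g 1 0 * (-(w 0 1 * w 0 1)) + g 0 1 * (w 0 0 * w 0 0) +
        (g 1 1 - 1) * (w 0 1 * w 0 0) by ring]
    exact add_mem (add_mem (add_mem (mul_mem_qMul a (neg_mem (mul_mem (hw 0 0) (hw 0 1))))
      (mul_mem_qMul c (neg_mem (mul_mem (hw 0 1) (hw 0 1)))))
      (mul_mem_qMul b (mul_mem (hw 0 0) (hw 0 0))))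
      (mul_mem_qMul d (mul_mem (hw 0 1) (hw 0 0)))
  · rw [show (w 1 0 * g 0 0 + w 1 1 * g 1 0) * w 1 1 + (w 1 0 * g 0 1 + w 1 1 * g 1 1) * -w 1 0 =
      (g 0 0 - 1) * (w 1 0 * w 1 1) + g 1 0 * (w 1 1 * w 1 1) + g 0 1 * (-(w 1 0 * w 1 0)) +
        (g 1 1 - 1) * (-(w 1 1 * w 1 0)) by ring]
    exact add_mem (add_mem (add_mem (mul_mem_qMul a (mul_mem (hw 1 0) (hw 1 1)))
      (mul_mem_qMul c (mul_mem (hw 1 1) (hw 1 1))))
      (mul_mem_qMul b (neg_mem (mul_mem (hw 1 0) (hw 1 0)))))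
      (mul_mem_qMul d (neg_mem (mul_mem (hw 1 1) (hw 1 0))))
  · rw [show (w 1 0 * g 0 0 + w 1 1 * g 1 0) * -w 0 1 + (w 1 0 * g 0 1 + w 1 1 * g 1 1) *
      w 0 0 - 1 =
      (g 0 0 - 1) * (-(w 1 0 * w 0 1)) + g 1 0 * (-(w 1 1 * w 0 1)) + g 0 1 * (w 1 0 * w 0 0) +
        (g 1 1 - 1) * (w 1 1 * w 0 0) by linear_combination hd]
    exact add_mem (add_mem (add_mem (mul_mem_qMul a (neg_mem (mul_mem (hw 1 0) (hw 0 1))))
      (mul_mem_qMul c (neg_mem (mul_mem (hw 1 1) (hw 0 1)))))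
      (mul_mem_qMul b (mul_mem (hw 1 0) (hw 0 0))))
      (mul_mem_qMul d (mul_mem (hw 1 1) (hw 0 0)))

end FermatAgent.LR

end
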