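import Fermat.Agent.LR.Ihara.QGroup
import Fermat.Prelude.Def_ModularCurve_PeriodMap
import Mathlib.NumberTheory.ModularForms.CongruenceSubgroups

/-!
# A pair in the kernel of the degeneracy maps extends to the group away from `q`

Two homomorphisms `u`, `v` on `Γ₀(N)` with `u(γ) + v(δ γ δ⁻¹) = 0` on `Γ₀(N q)`, `δ = diag(q, 1)`,
define by recursion on the determinant a potential on the integral matrices of determinant a power
of `q`, whose increment under right translation is a homomorphism on the group of level `N` with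
entries in `ℤ[1/q]` extending `u`.
-/

set_option autoImplicit false

noncomputable section

open scoped MatrixGroups
open Matrix CongruenceSubgroup

namespace FermatAgent.LR

local notation "Mat" => Matrix (Fin 2) (Fin 2) ℤ

/-- Integral matrices of determinant `q ^ n` with lower left entry divisible by `N`. -/
def InT (q N n : ℕ) (A : Mat) : Prop := A.det = (q : ℤ) ^ n ∧ (N : ℤ) ∣ A 1 0

/-- Not all entries are divisible by `q`. -/
def IsPrim (q : ℕ) (A : Mat) : Prop := ¬ ∀ i j, (q : ℤ) ∣ A i j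

/-- The step from degree `n` to degree `n + 1`. -/
def stepMat (q n : ℕ) : Mat := if Even n then !![(q : ℤ), 0; 0, 1] else !![1, 0; 0, (q : ℤ)]

variable {q N : ℕ} {k : Type*} [Field k]

lemma mul_entry (A B : Mat) (i j : Fin 2) : (A * B) i j = A i 0 * B 0 j + A i 1 * B 1 j := by
  simp [Matrix.mul_apply, Fin.sum_univ_two]

lemma dvd_gamma0 (γ : Gamma0 N) : (N : ℤ) ∣ (γ : SL(2, ℤ)) 1 0 :=
  (ZMod.intCast_zmod_eq_zero_iff_dvd _ _).mp (Gamma0_mem.mp γ.2)

lemma InT.left_mul {n : ℕ} {A : Mat} (h : InT q N n A) (γ : Gamma0 N) :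
    InT q N n ((γ : SL(2, ℤ)) * A) :=
  ⟨by rw [Matrix.det_mul, (γ : SL(2, ℤ)).det_coe, one_mul, h.1],
    by rw [mul_entry]; exact dvd_add ((dvd_gamma0 γ).mul_right _) (h.2.mul_left _)⟩

lemma det_stepMat (n : ℕ) : (stepMat q n).det = q := by
  rw [stepMat]; split <;> simp [Matrix.det_fin_two_of]

lemma stepMat_10 (n : ℕ) : stepMat q n 1 0 = 0 := by
  rw [stepMat]; split <;> rfl

lemma InT.step_mul {n : ℕ} {A : Mat} (h : InT q N n A) : InT q N (n + 1) (stepMat q n * A) :=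
  ⟨by rw [Matrix.det_mul, det_stepMat, h.1, pow_succ'], by
    rw [mul_entry, stepMat_10, zero_mul, zero_add]; exact h.2.mul_left _⟩

lemma gamma0_of_entries (M : Mat) (hd : M.det = 1) (hN : (N : ℤ) ∣ M 1 0) :
    ∃ γ : Gamma0 N, ((γ : SL(2, ℤ)) : Mat) = M :=
  ⟨⟨⟨M, hd⟩, Gamma0_mem.mpr ((ZMod.intCast_zmod_eq_zero_iff_dvd _ _).mpr hN)⟩, rfl⟩

variable (hq : q.Prime) (hqN : ¬ q ∣ N)
include hq hqN

lemma isCoprime_level : IsCoprime (q : ℤ) (N : ℤ) :=
  Nat.isCoprime_iff_coprime.mpr (hq.coprime_iff_not_dvd.mpr hqN)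

/-- An element of the level with a prescribed row up to scalar modulo `q`. -/
theorem exists_rows (x y : ZMod q) (hxy : x ≠ 0 ∨ y ≠ 0) :
    (∃ (g : Gamma0 N) (t : ZMod q), (((g : SL(2, ℤ)) 0 0 : ℤ) : ZMod q) = t * x ∧
      (((g : SL(2, ℤ)) 0 1 : ℤ) : ZMod q) = t * y) ∧
    (∃ (g : Gamma0 N) (t : ZMod q), (((g : SL(2, ℤ)) 1 0 : ℤ) : ZMod q) = t * x ∧
      (((g : SL(2, ℤ)) 1 1 : ℤ) : ZMod q) = t * y) := by
  have : Fact q.Prime := ⟨hq⟩
  obtain ⟨r, s, hrs⟩ := isCoprime_level hq hqN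
  constructor
  · by_cases hx : x = 0
    · obtain ⟨g, hg⟩ := gamma0_of_entries (N := N) !![r * q, -s; (N : ℤ), 1]
        (by rw [Matrix.det_fin_two_of]; linear_combination hrs) (by simp)
      have hy : y ≠ 0 := hxy.resolve_left (fun h => h hx)
      exact ⟨g, ((-s : ℤ) : ZMod q) * y⁻¹, by simp [hg, hx],
        by simp [hg, mul_assoc, inv_mul_cancel₀ hy]⟩
    · obtain ⟨g, hg⟩ := gamma0_of_entries (N := N) !![1, ((y * x⁻¹).val : ℤ); 0, 1]
        (by simp [Matrix.det_fin_two_of]) (by simp)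
      exact ⟨g, x⁻¹, by simp [hg, inv_mul_cancel₀ hx], by simp [hg, mul_comm]⟩
  · by_cases hy : y = 0
    · obtain ⟨g, hg⟩ := gamma0_of_entries (N := N) !![r, -s; (N : ℤ), (q : ℤ)]
        (by rw [Matrix.det_fin_two_of]; linear_combination hrs) (by simp)
      have hx : x ≠ 0 := hxy.resolve_right (fun h => h hy)
      exact ⟨g, (N : ZMod q) * x⁻¹, by simp [hg, mul_assoc, inv_mul_cancel₀ hx], by simp [hg, hy]⟩
    · have hN : (N : ZMod q) ≠ 0 := fun h0 => hqN ((ZMod.natCast_eq_zero_iff _ _).mp h0)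
      obtain ⟨g, hg⟩ := gamma0_of_entries (N := N)
        !![1, 0; (N : ℤ) * (((N : ZMod q)⁻¹ * (x * y⁻¹)).val : ℤ), 1]
        (by simp [Matrix.det_fin_two_of]) (by simp)
      refine ⟨g, y⁻¹, ?_, by simp [hg, inv_mul_cancel₀ hy]⟩
      simp [hg]
      field_simp

/-- A primitive matrix of positive degree has a parent. -/
theorem exists_parent {n : ℕ} {A : Mat} (h : InT q N (n + 1) A) :
    ∃ (γ : Gamma0 N) (B : Mat), InT q N n B ∧ A = (γ : SL(2, ℤ)) * (stepMat q n * B) := by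
  have : Fact q.Prime := ⟨hq⟩
  have hqz : (q : ℤ) ≠ 0 := Int.natCast_ne_zero.mpr hq.ne_zero
  obtain ⟨x, y, hxy, hker⟩ : ∃ x y : ZMod q, (x ≠ 0 ∨ y ≠ 0) ∧
      ∀ j, x * (A 0 j : ZMod q) + y * (A 1 j : ZMod q) = 0 := by
    have hd : ((A.map (Int.cast : ℤ → ZMod q))).det = 0 := by
      rw [show (A.map (Int.cast : ℤ → ZMod q)).det = ((A.det : ℤ) : ZMod q) from
        ((Int.castRingHom (ZMod q)).map_det A).symm, h.1]
      push_cast
      rw [ZMod.natCast_self, zero_pow n.succ_ne_zero]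
    obtain ⟨v, hv0, hv⟩ := Matrix.exists_vecMul_eq_zero_iff.mpr hd
    refine ⟨v 0, v 1, ?_, fun j => ?_⟩
    · by_contra hc
      push Not at hc
      exact hv0 (funext fun a => by fin_cases a <;> [exact hc.1; exact hc.2])
    · simpa [Matrix.vecMul, dotProduct, Fin.sum_univ_two] using congrFun hv j
  have hrow : ∀ (g : Gamma0 N) (t : ZMod q) (i : Fin 2),
      (((g : SL(2, ℤ)) i 0 : ℤ) : ZMod q) = t * x → (((g : SL(2, ℤ)) i 1 : ℤ) : ZMod q) = t * y →
      ∀ j, (q : ℤ) ∣ (((g : SL(2, ℤ)) : Mat) * A) i j := fun g t i hgx hgy j => by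
    rw [← ZMod.intCast_zmod_eq_zero_iff_dvd, mul_entry, Int.cast_add, Int.cast_mul, Int.cast_mul,
      hgx, hgy, mul_assoc, mul_assoc, ← mul_add, hker, mul_zero]
  suffices H : ∃ (g : Gamma0 N) (B : Mat),
      ((g : SL(2, ℤ)) : Mat) * A = stepMat q n * B ∧ (N : ℤ) ∣ B 1 0 by
    obtain ⟨g, B, hgB, hB⟩ := H
    refine ⟨g⁻¹, B, ⟨?_, hB⟩, ?_⟩
    · have h1 := (h.left_mul g).1
      rw [hgB, Matrix.det_mul, det_stepMat, pow_succ'] at h1
      exact mul_left_cancel₀ hqz h1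
    · rw [← hgB, ← Matrix.mul_assoc, Subgroup.coe_inv, ← Matrix.SpecialLinearGroup.coe_mul,
        inv_mul_cancel, Matrix.SpecialLinearGroup.coe_one, Matrix.one_mul]
  obtain ⟨⟨g0, t0, hx0, hy0⟩, ⟨g1, t1, hx1, hy1⟩⟩ := exists_rows hq hqN x y hxy
  rcases Nat.even_or_odd n with he | ho
  · choose c hc using hrow g0 t0 0 hx0 hy0
    set C : Mat := ((g0 : SL(2, ℤ)) : Mat) * A with hC
    refine ⟨g0, !![c 0, c 1; C 1 0, C 1 1], ?_, by simpa [hC] using (h.left_mul g0).2⟩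
    rw [stepMat, if_pos he, ← hC]
    ext a b
    fin_cases a <;> fin_cases b <;> simp [mul_entry, hc]
  · choose c hc using hrow g1 t1 1 hx1 hy1
    set C : Mat := ((g1 : SL(2, ℤ)) : Mat) * A with hC
    refine ⟨g1, !![C 0 0, C 0 1; c 0, c 1], ?_, ?_⟩
    · rw [stepMat, if_neg (Nat.not_even_iff_odd.mpr ho), ← hC]
      ext a b
      fin_cases a <;> fin_cases b <;> simp [mul_entry, hc]
    · have hN : (N : ℤ) ∣ C 1 0 := (h.left_mul g1).2
      rw [hc 0] at hN
      simpa using (isCoprime_level hq hqN).symm.dvd_of_dvd_mul_left hN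

omit hqN in
/-- Two parents of a primitive matrix differ by an element of the smaller level. -/
theorem parent_unique {n : ℕ} {B B' : Mat}
    (hp : IsPrim q (stepMat q n * B)) (g : Gamma0 N)
    (he : ((g : SL(2, ℤ)) : Mat) * (stepMat q n * B) = stepMat q n * B') :
    ∃ τ : Mat, τ.det = 1 ∧ B' = τ * B ∧ ((g : SL(2, ℤ)) : Mat) * stepMat q n = stepMat q n * τ := by
  have : Fact q.Prime := ⟨hq⟩
  have hqz : (q : ℤ) ≠ 0 := Int.natCast_ne_zero.mpr hq.ne_zero
  have hpz : Prime (q : ℤ) := Nat.prime_iff_prime_int.mp hq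
  have hg := (g : SL(2, ℤ)).det_coe
  rw [Matrix.det_fin_two] at hg
  have e := fun a b => congrFun (congrFun he a) b
  rcases Nat.even_or_odd n with hev | hod
  · simp only [stepMat, if_pos hev] at hp he e ⊢
    have e0 : ∀ b, (g : SL(2, ℤ)) 0 0 * ((q : ℤ) * B 0 b) + (g : SL(2, ℤ)) 0 1 * B 1 b =
        (q : ℤ) * B' 0 b := fun b => by
          simpa [Matrix.vecMul, dotProduct, Matrix.mul_apply, Fin.sum_univ_two] using e 0 b
    have e1 : ∀ b, (g : SL(2, ℤ)) 1 0 * ((q : ℤ) * B 0 b) + (g : SL(2, ℤ)) 1 1 * B 1 b =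
        B' 1 b := fun b => by
          simpa [Matrix.vecMul, dotProduct, Matrix.mul_apply, Fin.sum_univ_two] using e 1 b
    obtain ⟨b', hb'⟩ : (q : ℤ) ∣ (g : SL(2, ℤ)) 0 1 := by
      by_contra hb
      refine hp fun a b => ?_
      have h1 : (q : ℤ) ∣ B 1 b := ((hpz.dvd_or_dvd (show (q : ℤ) ∣ (g : SL(2, ℤ)) 0 1 * B 1 b from
        ⟨B' 0 b - (g : SL(2, ℤ)) 0 0 * B 0 b, by linear_combination e0 b⟩)).resolve_left hb)
      fin_cases a <;> simp [mul_entry, h1]
    refine ⟨!![(g : SL(2, ℤ)) 0 0, b'; (g : SL(2, ℤ)) 1 0 * q, (g : SL(2, ℤ)) 1 1], ?_, ?_, ?_⟩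
    · rw [Matrix.det_fin_two_of]; rw [hb'] at hg; linear_combination hg
    · ext a b
      refine (mul_left_cancel₀ (a := (q : ℤ) ^ (1 - (a : ℕ))) (pow_ne_zero _ hqz) ?_)
      fin_cases a
      · simp [mul_entry]
        have := e0 b
        rw [hb'] at this
        exact Or.inl (mul_left_cancel₀ hqz (by linear_combination -this))
      · simp [mul_entry]
        linear_combination -(e1 b)
    · ext a b
      fin_cases a <;> fin_cases b <;> simp [mul_entry, hb']
      ring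
  · simp only [stepMat, if_neg (Nat.not_even_iff_odd.mpr hod)] at hp he e ⊢
    have e0 : ∀ b, (g : SL(2, ℤ)) 0 0 * B 0 b + (g : SL(2, ℤ)) 0 1 * ((q : ℤ) * B 1 b) =
        B' 0 b := fun b => by
          simpa [Matrix.vecMul, dotProduct, Matrix.mul_apply, Fin.sum_univ_two] using e 0 b
    have e1 : ∀ b, (g : SL(2, ℤ)) 1 0 * B 0 b + (g : SL(2, ℤ)) 1 1 * ((q : ℤ) * B 1 b) =
        (q : ℤ) * B' 1 b := fun b => by
          simpa [Matrix.vecMul, dotProduct, Matrix.mul_apply, Fin.sum_univ_two] using e 1 b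
    obtain ⟨c', hc'⟩ : (q : ℤ) ∣ (g : SL(2, ℤ)) 1 0 := by
      by_contra hb
      refine hp fun a b => ?_
      have h1 : (q : ℤ) ∣ B 0 b := ((hpz.dvd_or_dvd (show (q : ℤ) ∣ (g : SL(2, ℤ)) 1 0 * B 0 b from
        ⟨B' 1 b - (g : SL(2, ℤ)) 1 1 * B 1 b, by linear_combination e1 b⟩)).resolve_left hb)
      fin_cases a <;> simp [mul_entry, h1]
    refine ⟨!![(g : SL(2, ℤ)) 0 0, (g : SL(2, ℤ)) 0 1 * q; c', (g : SL(2, ℤ)) 1 1], ?_, ?_, ?_⟩
    · rw [Matrix.det_fin_two_of]; rw [hc'] at hg; linear_combination hg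
    · ext a b
      refine (mul_left_cancel₀ (a := (q : ℤ) ^ (a : ℕ)) (pow_ne_zero _ hqz) ?_)
      fin_cases a
      · simp [mul_entry]
        linear_combination -(e0 b)
      · simp [mul_entry]
        have := e1 b
        rw [hc'] at this
        exact Or.inl (mul_left_cancel₀ hqz (by linear_combination -this))
    · ext a b
      fin_cases a <;> fin_cases b <;> simp [mul_entry, hc']
      ring

end FermatAgent.LR

end
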